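import Fermat.Agent.TOR.KL2.Defs
import Fermat.Agent.GAL.KL.Basic

/-!
# TOR / KL2 : basic API for `NN`, `Setup`, `ON2`
-/

set_option autoImplicit false

namespace Fermat.Agent.TOR.KL2

open Polynomial Fermat.Agent.GAL.KL

variable {L F Γ₀ : Type*} [Field L] [Field F] [Algebra L F] [LinearOrderedCommGroupWithZero Γ₀]
variable {v₁ v₂ : Valuation F Γ₀} {t : F}

/-! ### the sup norm -/

theorem NN_le_iff {x : F} {γ : Γ₀} : NN v₁ v₂ x ≤ γ ↔ v₁ x ≤ γ ∧ v₂ x ≤ γ := max_le_iff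

theorem NN_lt_iff {x : F} {γ : Γ₀} : NN v₁ v₂ x < γ ↔ v₁ x < γ ∧ v₂ x < γ := max_lt_iff

theorem NN_comm (x : F) : NN v₁ v₂ x = NN v₂ v₁ x := max_comm _ _

theorem le_NN_left (x : F) : v₁ x ≤ NN v₁ v₂ x := le_max_left _ _

theorem le_NN_right (x : F) : v₂ x ≤ NN v₁ v₂ x := le_max_right _ _

@[simp] theorem NN_zero : NN v₁ v₂ (0 : F) = 0 := by simp [NN]

@[simp] theorem NN_one : NN v₁ v₂ (1 : F) = 1 := by simp [NN]

@[simp] theorem NN_neg (x : F) : NN v₁ v₂ (-x) = NN v₁ v₂ x := by simp [NN, Valuation.map_neg]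

theorem NN_eq_zero {x : F} : NN v₁ v₂ x = 0 ↔ x = 0 := by
  constructor
  · intro h
    have h1 : v₁ x ≤ 0 := h ▸ le_NN_left x
    exact (map_eq_zero v₁).1 (le_zero_iff.1 h1)
  · rintro rfl; exact NN_zero

theorem NN_add_le (x y : F) : NN v₁ v₂ (x + y) ≤ max (NN v₁ v₂ x) (NN v₁ v₂ y) := by
  rw [NN_le_iff]
  exact ⟨(v₁.map_add x y).trans (max_le_max (le_NN_left x) (le_NN_left y)),
    (v₂.map_add x y).trans (max_le_max (le_NN_right x) (le_NN_right y))⟩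

theorem NN_sub_le (x y : F) : NN v₁ v₂ (x - y) ≤ max (NN v₁ v₂ x) (NN v₁ v₂ y) := by
  rw [sub_eq_add_neg]
  exact (NN_add_le x (-y)).trans (by rw [NN_neg])

theorem NN_add_le' {x y : F} {γ : Γ₀} (hx : NN v₁ v₂ x ≤ γ) (hy : NN v₁ v₂ y ≤ γ) :
    NN v₁ v₂ (x + y) ≤ γ := (NN_add_le x y).trans (max_le hx hy)

theorem NN_sub_le' {x y : F} {γ : Γ₀} (hx : NN v₁ v₂ x ≤ γ) (hy : NN v₁ v₂ y ≤ γ) :
    NN v₁ v₂ (x - y) ≤ γ := (NN_sub_le x y).trans (max_le hx hy)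

theorem NN_add_lt {x y : F} {γ : Γ₀} (hx : NN v₁ v₂ x < γ) (hy : NN v₁ v₂ y < γ) :
    NN v₁ v₂ (x + y) < γ := lt_of_le_of_lt (NN_add_le x y) (max_lt hx hy)

theorem NN_sub_lt {x y : F} {γ : Γ₀} (hx : NN v₁ v₂ x < γ) (hy : NN v₁ v₂ y < γ) :
    NN v₁ v₂ (x - y) < γ := lt_of_le_of_lt (NN_sub_le x y) (max_lt hx hy)

theorem NN_sub_swap (x y : F) : NN v₁ v₂ (x - y) = NN v₁ v₂ (y - x) := by
  rw [← NN_neg, neg_sub]

theorem NN_mul_le (x y : F) : NN v₁ v₂ (x * y) ≤ NN v₁ v₂ x * NN v₁ v₂ y := by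
  rw [NN_le_iff, map_mul, map_mul]
  exact ⟨mul_le_mul' (le_NN_left x) (le_NN_left y), mul_le_mul' (le_NN_right x) (le_NN_right y)⟩

/-- semilinearity over the elements on which the two valuations agree. -/
theorem NN_mul_of_eq {a : F} (h : v₁ a = v₂ a) (x : F) : NN v₁ v₂ (a * x) = v₁ a * NN v₁ v₂ x := by
  rw [NN, NN, map_mul, map_mul, ← h, mul_max]

theorem NN_sum_le {ι : Type*} (s : Finset ι) (f : ι → F) {γ : Γ₀}
    (h : ∀ i ∈ s, NN v₁ v₂ (f i) ≤ γ) : NN v₁ v₂ (∑ i ∈ s, f i) ≤ γ := by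
  rw [NN_le_iff]
  exact ⟨Valuation.map_sum_le v₁ fun i hi => (NN_le_iff.1 (h i hi)).1,
    Valuation.map_sum_le v₂ fun i hi => (NN_le_iff.1 (h i hi)).2⟩

theorem NN_sum_lt {ι : Type*} (s : Finset ι) (f : ι → F) {γ : Γ₀} (hγ : γ ≠ 0)
    (h : ∀ i ∈ s, NN v₁ v₂ (f i) < γ) : NN v₁ v₂ (∑ i ∈ s, f i) < γ := by
  rw [NN_lt_iff]
  exact ⟨Valuation.map_sum_lt v₁ hγ fun i hi => (NN_lt_iff.1 (h i hi)).1,
    Valuation.map_sum_lt v₂ hγ fun i hi => (NN_lt_iff.1 (h i hi)).2⟩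

/-! ### `Setup` -/

theorem Setup.symm (S : Setup L v₁ v₂ t) : Setup L v₂ v₁ t := ⟨S.G2, S.G1, fun a => (S.eqL a).symm⟩

theorem Setup.inv (S : Setup L v₁ v₂ t) : Setup L v₁ v₂ t⁻¹ := ⟨S.G1.inv, S.G2.inv, S.eqL⟩

theorem Setup.eq_aeval (S : Setup L v₁ v₂ t) (p : L[X]) : v₁ (aeval t p) = v₂ (aeval t p) := by
  apply le_antisymm
  · rw [S.G1 p]
    intro i
    rw [S.eqL]
    exact (S.G2 p _).1 le_rfl i
  · rw [S.G2 p]
    intro i
    rw [← S.eqL]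
    exact (S.G1 p _).1 le_rfl i

theorem Setup.NN_aeval_mul (S : Setup L v₁ v₂ t) (p : L[X]) (x : F) :
    NN v₁ v₂ (aeval t p * x) = v₁ (aeval t p) * NN v₁ v₂ x := NN_mul_of_eq (S.eq_aeval p) x

theorem Setup.NN_algebraMap_mul (S : Setup L v₁ v₂ t) (a : L) (x : F) :
    NN v₁ v₂ (algebraMap L F a * x) = v₁ (algebraMap L F a) * NN v₁ v₂ x :=
  NN_mul_of_eq (S.eqL a) x

theorem Setup.NN_t_pow_mul (S : Setup L v₁ v₂ t) (m : ℕ) (x : F) :
    NN v₁ v₂ (t ^ m * x) = NN v₁ v₂ x := by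
  rw [NN_mul_of_eq (by rw [map_pow, map_pow, S.G1.v_t, S.G2.v_t]), map_pow, S.G1.v_t, one_pow,
    one_mul]

theorem Setup.NN_t_inv_pow_mul (S : Setup L v₁ v₂ t) (m : ℕ) (x : F) :
    NN v₁ v₂ ((t⁻¹) ^ m * x) = NN v₁ v₂ x := S.inv.NN_t_pow_mul m x

theorem Setup.natCast_eq (S : Setup L v₁ v₂ t) (n : ℕ) : v₁ (n : F) = v₂ (n : F) := by
  have := S.eqL (n : L)
  rwa [map_natCast] at this

/-! ### orthonormal families -/

theorem ON2.symm (S : Setup L v₁ v₂ t) {d : ℕ} {e : Fin d → F} (he : ON2 L v₁ v₂ t e) :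
    ON2 L v₂ v₁ t e := by
  intro p γ
  rw [NN_comm, he p γ]
  exact forall_congr' fun i => by rw [S.eq_aeval]

theorem ON2.inj (S : Setup L v₁ v₂ t) {d : ℕ} {e : Fin d → F} (he : ON2 L v₁ v₂ t e)
    (p : Fin d → L[X]) (h : comb L t p e = 0) : p = 0 := by
  have h1 := (he p 0).mp (by rw [h, NN_zero])
  funext i
  have h2 := h1 i
  rw [le_zero_iff, map_eq_zero] at h2
  exact S.G1.inj _ h2

theorem ON2.lt_iff {d : ℕ} {e : Fin d → F} (he : ON2 L v₁ v₂ t e)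
    (p : Fin d → L[X]) (γ : Γ₀) (hγ : γ ≠ 0) :
    NN v₁ v₂ (comb L t p e) < γ ↔ ∀ i, v₁ (aeval t (p i)) < γ := by
  constructor
  · intro h i
    exact lt_of_le_of_lt ((he p _).mp le_rfl i) h
  · intro h
    obtain ⟨δ, hδ, hb⟩ := exists_lt_bound Finset.univ (fun i => v₁ (aeval t (p i))) γ hγ
      (fun i _ => h i)
    exact lt_of_le_of_lt ((he p δ).mpr fun i => hb i (Finset.mem_univ i)) hδ

theorem ON2.NN_eq_one {d : ℕ} {e : Fin d → F} (he : ON2 L v₁ v₂ t e) (i : Fin d) :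
    NN v₁ v₂ (e i) = 1 := by
  classical
  have h := he (Pi.single i 1)
  rw [comb_single, map_one, one_mul] at h
  apply le_antisymm
  · rw [h]
    intro j
    by_cases hj : j = i
    · subst hj
      rw [Pi.single_eq_same, map_one, map_one]
    · rw [Pi.single_eq_of_ne hj, map_zero, map_zero]
      exact zero_le
  · have h1 := (h (NN v₁ v₂ (e i))).mp le_rfl i
    rwa [Pi.single_eq_same, map_one, map_one] at h1

theorem ON2.inv (S : Setup L v₁ v₂ t) {d : ℕ} {e : Fin d → F} (he : ON2 L v₁ v₂ t e) :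
    ON2 L v₁ v₂ t⁻¹ e := by
  intro p γ
  set N := Finset.univ.sup fun i => (p i).natDegree with hN
  have hp : ∀ i, (p i).natDegree ≤ N := fun i =>
    Finset.le_sup (f := fun i => (p i).natDegree) (Finset.mem_univ i)
  rw [comb_inv_eq S.G1.ne_zero N p hp, S.NN_t_inv_pow_mul, he]
  refine forall_congr' fun i => ?_
  rw [S.G1.v_aeval_inv N (p i) (hp i)]

/-- multiplying an orthonormal family by an element of `L[t]` of valuation one. -/
theorem ON2.mul_of_v_eq_one (S : Setup L v₁ v₂ t) {d : ℕ} {β : Fin d → F} (hβ : ON2 L v₁ v₂ t β)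
    (q : L[X]) (hq : v₁ (aeval t q) = 1) : ON2 L v₁ v₂ t (fun i => aeval t q * β i) := by
  intro p γ
  have : comb L t p (fun i => aeval t q * β i) = aeval t q * comb L t p β := by
    simp only [comb, Finset.mul_sum]
    exact Finset.sum_congr rfl fun j _ => by ring
  rw [this, S.NN_aeval_mul, hq, one_mul]
  exact hβ p γ

end Fermat.Agent.TOR.KL2
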