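import Fermat.Agent.TOR.KL2.Basic

/-!
# TOR / KL2 : how to produce the hypotheses `FrobLike` and `Rad` of `keyLemma2`

* `isInt_map` : a ring endomorphism of `F`, semilinear over `L`, fixing the parameter `u`, preserves `B_u`.
* `FrobLike.of_isom` : constructor from `v_i ∘ φ = v_i`.
* `frobLike_one` : inertia (`φ x ≡ x` on `B_u ∩ O`) is `FrobLike` of exponent `1`.
* `rad_of_frobLike` : if some automorphism `ψ` is `FrobLike` of exponent `Q ≥ 2` then the conductor is radical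
  ("the crossing points are defined over the field with `Q` elements, so they are reduced").
-/

set_option autoImplicit false

namespace Fermat.Agent.TOR.KL2

open Polynomial Fermat.Agent.GAL.KL

variable {L F Γ₀ : Type*} [Field L] [Field F] [Algebra L F] [LinearOrderedCommGroupWithZero Γ₀]
variable {v₁ v₂ : Valuation F Γ₀} {u : F}

/-- semilinear ring endomorphisms fixing the parameter preserve integrality over `L[u]`. -/
theorem isInt_map (φ : F →+* F) (σ₀ : L →+* L)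
    (hσ : ∀ a, φ (algebraMap L F a) = algebraMap L F (σ₀ a)) (hu : φ u = u) {x : F}
    (hx : IsInt L u x) : IsInt L u (φ x) := by
  obtain ⟨p, hp, hpx⟩ := hx
  refine ⟨p.map (mapRingHom σ₀), hp.map _, ?_⟩
  rw [eval₂_map]
  have h1 : (((aeval u : L[X] →ₐ[L] F) : L[X] →+* F).comp (mapRingHom σ₀))
      = φ.comp ((aeval u : L[X] →ₐ[L] F) : L[X] →+* F) := by
    refine Polynomial.ringHom_ext (fun a => ?_) ?_
    · simp [hσ]
    · simp [hu]
  rw [h1, ← hom_eval₂, hpx, map_zero]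

theorem isInt_map_inv (φ : F →+* F) (σ₀ : L →+* L)
    (hσ : ∀ a, φ (algebraMap L F a) = algebraMap L F (σ₀ a)) (hu : φ u = u) {x : F}
    (hx : IsInt L u⁻¹ x) : IsInt L u⁻¹ (φ x) :=
  isInt_map φ σ₀ hσ (by rw [map_inv₀, hu]) hx

/-- constructor of `FrobLike` for valuation preserving maps. -/
theorem FrobLike.of_isom (φ : F →+* F) (Q : ℕ) (hint : ∀ x, IsInt L u x → IsInt L u (φ x))
    (h1 : ∀ x, v₁ (φ x) = v₁ x) (h2 : ∀ x, v₂ (φ x) = v₂ x)
    (hc : ∀ b, IsInt L u b → v₁ b ≤ 1 → v₂ b ≤ 1 → Cond L v₁ v₂ u (φ b - b ^ Q)) :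
    FrobLike L v₁ v₂ u φ Q :=
  ⟨hint, fun x hx => by rwa [h1], fun x hx => by rwa [h1], fun x hx => by rwa [h2],
    fun x hx => by rwa [h2], hc⟩

/-- inertia is `FrobLike` of exponent one. -/
theorem frobLike_one (φ : F →+* F) (hint : ∀ x, IsInt L u x → IsInt L u (φ x))
    (h1 : ∀ x, v₁ (φ x) = v₁ x) (h2 : ∀ x, v₂ (φ x) = v₂ x)
    (hc : ∀ b, IsInt L u b → v₁ b ≤ 1 → v₂ b ≤ 1 → v₁ (φ b - b) < 1) :
    FrobLike L v₁ v₂ u φ 1 :=
  FrobLike.of_isom φ 1 hint h1 h2 fun b hb hb1 hb2 =>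
    ⟨0, IsInt.zero, by rw [pow_one, sub_zero]; exact hc b hb hb1 hb2, by rw [map_zero]; exact zero_lt_one⟩

/-! ### the conductor condition is an ideal -/

theorem Cond.zero : Cond L v₁ v₂ u 0 :=
  ⟨0, IsInt.zero, by rw [sub_zero, map_zero]; exact zero_lt_one, by rw [map_zero]; exact zero_lt_one⟩

theorem Cond.add {a b : F} (ha : Cond L v₁ v₂ u a) (hb : Cond L v₁ v₂ u b) :
    Cond L v₁ v₂ u (a + b) := by
  obtain ⟨c, hc, hc1, hc2⟩ := ha
  obtain ⟨c', hc', hc'1, hc'2⟩ := hb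
  refine ⟨c + c', hc.add hc', ?_, Valuation.map_add_lt v₂ hc2 hc'2⟩
  have h : a + b - (c + c') = (a - c) + (b - c') := by ring
  rw [h]
  exact Valuation.map_add_lt v₁ hc1 hc'1

theorem Cond.mul_right {a b : F} (ha : Cond L v₁ v₂ u a) (hb : IsInt L u b) (hb1 : v₁ b ≤ 1)
    (hb2 : v₂ b ≤ 1) : Cond L v₁ v₂ u (a * b) := by
  obtain ⟨c, hc, hc1, hc2⟩ := ha
  refine ⟨c * b, hc.mul hb, ?_, ?_⟩
  · rw [← sub_mul, map_mul]
    exact mul_lt_one_of_lt_of_le hc1 hb1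
  · rw [map_mul]
    exact mul_lt_one_of_lt_of_le hc2 hb2

/-- `x ≡ y` modulo the conductor implies `x ^ m ≡ y ^ m`. -/
theorem Cond.pow_sub_pow {x y : F} (h : Cond L v₁ v₂ u (x - y)) (hx : IsInt L u x)
    (hx1 : v₁ x ≤ 1) (hx2 : v₂ x ≤ 1) (hy : IsInt L u y) (hy1 : v₁ y ≤ 1) (hy2 : v₂ y ≤ 1) (m : ℕ) :
    Cond L v₁ v₂ u (x ^ m - y ^ m) := by
  rw [← (Commute.all x y).mul_geom_sum₂ m]
  refine h.mul_right (IsInt.sum _ _ fun i _ => (hx.pow i).mul (hy.pow _)) ?_ ?_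
  · refine Valuation.map_sum_le v₁ fun i _ => ?_
    rw [map_mul, map_pow, map_pow]
    exact mul_le_one' (pow_le_one' hx1 _) (pow_le_one' hy1 _)
  · refine Valuation.map_sum_le v₂ fun i _ => ?_
    rw [map_mul, map_pow, map_pow]
    exact mul_le_one' (pow_le_one' hx2 _) (pow_le_one' hy2 _)

/-- iterating a Frobenius-like map. -/
theorem FrobLike.iterate {φ : F →+* F} {Q : ℕ} (hφ : FrobLike L v₁ v₂ u φ Q) (i : ℕ) :
    ∀ b, IsInt L u b → v₁ b ≤ 1 → v₂ b ≤ 1 → Cond L v₁ v₂ u ((⇑φ)^[i] b - b ^ (Q ^ i)) := by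
  induction i with
  | zero =>
    intro b _ _ _
    rw [Function.iterate_zero, id, pow_zero, pow_one, sub_self]
    exact Cond.zero
  | succ i ih =>
    intro b hb hb1 hb2
    have h1 := ih (φ b) (hφ.int b hb) (hφ.le1 b hb1) (hφ.le2 b hb2)
    have h2 := (hφ.cond b hb hb1 hb2).pow_sub_pow (hφ.int b hb) (hφ.le1 b hb1) (hφ.le2 b hb2)
      (hb.pow Q) (by rw [map_pow]; exact pow_le_one' hb1 Q) (by rw [map_pow]; exact pow_le_one' hb2 Q)
      (Q ^ i)
    have h3 := h1.add h2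
    rw [sub_add_sub_cancel, ← pow_mul, ← pow_succ'] at h3
    rwa [Function.iterate_succ_apply]

/-- **the conductor is radical** as soon as some automorphism is Frobenius-like of exponent `Q ≥ 2`. -/
theorem rad_of_frobLike (ψ : F ≃+* F) {Q : ℕ} (hQ : 2 ≤ Q)
    (hψ : FrobLike L v₁ v₂ u (ψ : F →+* F) Q) (hint : ∀ x, IsInt L u x → IsInt L u (ψ.symm x))
    (h1 : ∀ x, v₁ (ψ x) = v₁ x) (h2 : ∀ x, v₂ (ψ x) = v₂ x) : Rad L v₁ v₂ u := by
  intro b m _ hb hb1 hb2 hc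
  -- descent along `ψ`
  have hdesc : ∀ y, Cond L v₁ v₂ u (ψ y) → Cond L v₁ v₂ u y := by
    rintro y ⟨c, hc, hc1, hc2⟩
    refine ⟨ψ.symm c, hint c hc, ?_, ?_⟩
    · rw [← h1, map_sub, ψ.apply_symm_apply]; exact hc1
    · rw [← h2, ψ.apply_symm_apply]; exact hc2
  have hdesc' : ∀ (i : ℕ) (y : F), Cond L v₁ v₂ u ((⇑(ψ : F →+* F))^[i] y) → Cond L v₁ v₂ u y := by
    intro i
    induction i with
    | zero => intro y h; exact h
    | succ i ih =>
      intro y h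
      rw [Function.iterate_succ_apply] at h
      exact hdesc y (ih _ h)
  apply hdesc' m
  have hm : m ≤ Q ^ m := (Nat.lt_pow_self (by omega)).le
  have h3 : Cond L v₁ v₂ u (b ^ (Q ^ m)) := by
    have h4 : b ^ (Q ^ m) = b ^ m * b ^ (Q ^ m - m) := by
      rw [← pow_add, Nat.add_sub_cancel' hm]
    rw [h4]
    exact hc.mul_right (hb.pow _) (by rw [map_pow]; exact pow_le_one' hb1 _)
      (by rw [map_pow]; exact pow_le_one' hb2 _)
  have h5 := (hψ.iterate m b hb hb1 hb2).add h3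
  rwa [sub_add_cancel] at h5

end Fermat.Agent.TOR.KL2
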