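import Fermat.Agent.TOR.KL2.Basic
import Fermat.Agent.GAL.KL.Newton

/-!
# TOR / KL2 : Newton iteration inside a chart, for two valuations simultaneously
(port of `GAL/KL/Newton.lean`; the Newton step `G ↦ (1 - ε/n) G` does not depend on the valuation)
-/

set_option autoImplicit false

namespace Fermat.Agent.TOR.KL2

open Polynomial Fermat.Agent.GAL.KL

variable {L F Γ₀ : Type*} [Field L] [Field F] [Algebra L F] [LinearOrderedCommGroupWithZero Γ₀]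
variable {v₁ v₂ : Valuation F Γ₀} {t : F}

omit [Field L] [Algebra L F] in
/-- the explicit Newton step, for one valuation. -/
theorem newton_step_explicit (v : Valuation F Γ₀) {n : ℕ} (hvn : v (n : F) = 1) {w G : F}
    (hG1 : v (G - 1) < 1) (h1 : v (G ^ n * w - 1) < 1) :
    v (((1 - (G ^ n * w - 1) / n) * G) ^ n * w - 1) ≤ v (G ^ n * w - 1) ^ 2 ∧
      v ((1 - (G ^ n * w - 1) / n) * G - 1) < 1 := by
  have hnF : (n : F) ≠ 0 := by
    intro h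
    rw [h, map_zero] at hvn
    exact zero_ne_one hvn
  set ε : F := G ^ n * w - 1 with hε
  set δ : F := ε / n with hδ
  have hvδ : v δ = v ε := by
    rw [hδ, map_div₀, hvn, div_one]
  constructor
  · obtain ⟨κ, hκ, hb⟩ := newton_binom (v := v) (x := -δ)
      (by rw [Valuation.map_neg, hvδ]; exact h1.le) n
    have hnδ : (n : F) * δ = ε := by
      rw [hδ]; field_simp
    have key : ((1 - δ) * G) ^ n * w - 1 = -ε ^ 2 + (1 + ε) * (δ ^ 2 * κ) := by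
      have e1 : ((1 - δ) * G) ^ n * w = (1 + -δ) ^ n * (1 + ε) := by
        rw [hε, mul_pow]; ring
      rw [e1, hb]
      have : (n : F) * -δ = -ε := by rw [mul_neg, hnδ]
      rw [this]
      ring
    rw [key]
    refine Valuation.map_add_le v ?_ ?_
    · rw [Valuation.map_neg, map_pow]
    · rw [map_mul, map_mul, map_pow, hvδ, Valuation.map_one_add_of_lt v h1, one_mul]
      exact mul_le_of_le_one_right' hκ
  · have : (1 - δ) * G - 1 = (G - 1) - δ * G := by ring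
    rw [this]
    refine Valuation.map_sub_lt v hG1 ?_
    rw [map_mul, newton_eq_one_of_sub_lt hG1, mul_one, hvδ]
    exact h1

/-- the Newton step stays in the lattice. -/
theorem newton_step_mem {n : ℕ} {w G : F} (hG : G ∈ II L t n w) :
    (1 - (G ^ n * w - 1) / n) * G ∈ II L t n w := by
  have hεint : IsInt L t (G ^ n * w - 1) := IsInt.sub hG IsInt.one
  have hδ : (G ^ n * w - 1) / n = algebraMap L F ((n : L)⁻¹) * (G ^ n * w - 1) := by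
    rw [map_inv₀, map_natCast, div_eq_inv_mul]
  rw [hδ]
  exact II.mul (IsInt.sub IsInt.one (IsInt.mul (IsInt.algebraMap _) hεint)) hG

/-- iterate of the Newton step. -/
lemma newton2_iter {n : ℕ} (hvn₁ : v₁ (n : F) = 1) (hvn₂ : v₂ (n : F) = 1) {w G : F}
    (hG : G ∈ II L t n w) (hG1 : v₁ (G - 1) < 1) (hG2 : v₂ (G - 1) < 1)
    (h1 : v₁ (G ^ n * w - 1) < 1) (h2 : v₂ (G ^ n * w - 1) < 1) (k : ℕ) :
    ∃ G' : F, G' ∈ II L t n w ∧ v₁ (G' ^ n * w - 1) ≤ v₁ (G ^ n * w - 1) ^ (2 ^ k) ∧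
      v₂ (G' ^ n * w - 1) ≤ v₂ (G ^ n * w - 1) ^ (2 ^ k) ∧ v₁ (G' - 1) < 1 ∧ v₂ (G' - 1) < 1 := by
  induction k with
  | zero => exact ⟨G, hG, by simp, by simp, hG1, hG2⟩
  | succ k ih =>
    obtain ⟨G₁, hG₁, hle₁, hle₂, hG₁1, hG₁2⟩ := ih
    have h1' : v₁ (G₁ ^ n * w - 1) < 1 :=
      lt_of_le_of_lt hle₁ (pow_lt_one₀ zero_le h1 (by positivity))
    have h2' : v₂ (G₁ ^ n * w - 1) < 1 :=
      lt_of_le_of_lt hle₂ (pow_lt_one₀ zero_le h2 (by positivity))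
    obtain ⟨ha, hb⟩ := newton_step_explicit v₁ hvn₁ hG₁1 h1'
    obtain ⟨ha', hb'⟩ := newton_step_explicit v₂ hvn₂ hG₁2 h2'
    refine ⟨_, newton_step_mem hG₁, ha.trans ?_, ha'.trans ?_, hb, hb'⟩
    · rw [pow_succ 2 k, pow_mul]
      exact pow_le_pow_left₀ zero_le hle₁ 2
    · rw [pow_succ 2 k, pow_mul]
      exact pow_le_pow_left₀ zero_le hle₂ 2

omit [Field L] [Algebra L F] in
lemma pow_mul_sub_one_lt (v : Valuation F Γ₀) {n : ℕ} {w G : F} (hG1 : v (G - 1) < 1)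
    (hw : v (w - 1) < 1) : v (G ^ n * w - 1) < 1 := by
  have : G ^ n * w - 1 = (G ^ n - 1) * w + (w - 1) := by ring
  rw [this]
  refine Valuation.map_add_lt v ?_ hw
  rw [map_mul, newton_eq_one_of_sub_lt hw, mul_one]
  exact newton_pow_sub_one_lt hG1 n

/-- **Newton for two valuations.** -/
theorem newton2 (hA₁ : Arch v₁) (hA₂ : Arch v₂) {n : ℕ} (hvn₁ : v₁ (n : F) = 1)
    (hvn₂ : v₂ (n : F) = 1) {w G : F} (hG : G ∈ II L t n w)
    (hG1 : NN v₁ v₂ (G - 1) < 1) (hw : NN v₁ v₂ (w - 1) < 1) (γ : Γ₀) (hγ : γ ≠ 0) :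
    ∃ G' : F, G' ∈ II L t n w ∧ NN v₁ v₂ (G' ^ n * w - 1) < γ ∧ NN v₁ v₂ (G' - 1) < 1 := by
  obtain ⟨hG11, hG12⟩ := NN_lt_iff.1 hG1
  obtain ⟨hw1, hw2⟩ := NN_lt_iff.1 hw
  have h1 := pow_mul_sub_one_lt v₁ (n := n) hG11 hw1
  have h2 := pow_mul_sub_one_lt v₂ (n := n) hG12 hw2
  obtain ⟨m₁, hm₁⟩ := hA₁ _ h1 γ hγ
  obtain ⟨m₂, hm₂⟩ := hA₂ _ h2 γ hγ
  obtain ⟨G', hG', hle₁, hle₂, hG'1, hG'2⟩ :=
    newton2_iter hvn₁ hvn₂ hG hG11 hG12 h1 h2 (max m₁ m₂)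
  refine ⟨G', hG', NN_lt_iff.2 ⟨lt_of_le_of_lt (hle₁.trans ?_) hm₁,
    lt_of_le_of_lt (hle₂.trans ?_) hm₂⟩, NN_lt_iff.2 ⟨hG'1, hG'2⟩⟩
  · exact pow_le_pow_of_le_one zero_le h1.le
      ((le_max_left m₁ m₂).trans (Nat.lt_two_pow_self).le)
  · exact pow_le_pow_of_le_one zero_le h2.le
      ((le_max_right m₁ m₂).trans (Nat.lt_two_pow_self).le)

omit [Field L] [Algebra L F] in
/-- comparison of two approximate roots. -/
theorem close2 {n : ℕ} (hvn₁ : v₁ (n : F) = 1) (hvn₂ : v₂ (n : F) = 1) {w a b : F}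
    (hw : NN v₁ v₂ (w - 1) < 1) (ha : NN v₁ v₂ (a - 1) < 1) (hb : NN v₁ v₂ (b - 1) < 1) (γ : Γ₀)
    (ha' : NN v₁ v₂ (a ^ n * w - 1) < γ) (hb' : NN v₁ v₂ (b ^ n * w - 1) < γ) :
    NN v₁ v₂ (a - b) < γ :=
  NN_lt_iff.2 ⟨close_of_pow_close hvn₁ (NN_lt_iff.1 hw).1 (NN_lt_iff.1 ha).1 (NN_lt_iff.1 hb).1 γ
      (NN_lt_iff.1 ha').1 (NN_lt_iff.1 hb').1,
    close_of_pow_close hvn₂ (NN_lt_iff.1 hw).2 (NN_lt_iff.1 ha).2 (NN_lt_iff.1 hb).2 γ
      (NN_lt_iff.1 ha').2 (NN_lt_iff.1 hb').2⟩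

end Fermat.Agent.TOR.KL2
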