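import Fermat.Agent.TOR.KL2.Basic
import Fermat.Agent.GAL.KL.Split

/-!
# TOR / KL2 : `split` and `exists_global` for the sup norm (port of `GAL/KL/Split.lean`)
-/

set_option autoImplicit false

namespace Fermat.Agent.TOR.KL2

open Polynomial Fermat.Agent.GAL.KL

variable {L F Γ₀ : Type*} [Field L] [Field F] [Algebra L F] [LinearOrderedCommGroupWithZero Γ₀]
variable {v₁ v₂ : Valuation F Γ₀} {t : F}

/-- the induction behind `split`. -/
lemma split2_aux (S : Setup L v₁ v₂ t) {d : ℕ} (Λ0 Λoo : Set F) (e e' : Fin d → F)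
    (he : IsBasis L t e Λ0) (heON : ON2 L v₁ v₂ t e) (he' : IsBasis L t⁻¹ e' Λoo)
    (s : ℕ) (hs : ∀ i, (t⁻¹) ^ s * e i ∈ Λoo) (γ : Γ₀) (m : ℕ) :
    ∀ x : F, NN v₁ v₂ x < γ → t ^ m * x ∈ Λ0 →
      ∃ x0 z : F, x = x0 + t ^ s * z ∧ x0 ∈ Λ0 ∧ z ∈ Λoo ∧ NN v₁ v₂ x0 < γ ∧ NN v₁ v₂ z < γ := by
  have hG := S.G1
  have ht : t ≠ 0 := hG.ne_zero
  induction m with
  | zero =>
    intro x hx hxm
    refine ⟨x, 0, by simp, by simpa using hxm, he'.zero_mem, hx, ?_⟩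
    rw [NN_zero]
    exact lt_of_le_of_lt zero_le hx
  | succ m ih =>
    intro x hx hxm
    have hγ : γ ≠ 0 := fun h => by
      rw [h] at hx
      exact not_lt_zero hx
    obtain ⟨a, ha⟩ := (he.2 _).1 hxm
    -- all coefficients of `a` are small
    have hva : NN v₁ v₂ (comb L t a e) < γ := by
      rw [← ha, S.NN_t_pow_mul]; exact hx
    have hcoef : ∀ i k, v₁ (algebraMap L F ((a i).coeff k)) < γ := fun i =>
      (hG.lt_iff (a i) γ hγ).1 ((heON.lt_iff a γ hγ).1 hva i)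
    -- the two pieces
    set a₁ : Fin d → L[X] := fun i => divX (a i) with ha₁
    set a₀ : Fin d → L[X] := fun i => C ((a i).coeff 0) with ha₀
    have hsplit : comb L t a e = t * comb L t a₁ e + comb L t a₀ e := by
      have h1 : a = (fun i => X * a₁ i) + a₀ := by
        funext i
        simp only [Pi.add_apply, ha₁, ha₀]
        rw [mul_comm, divX_mul_X_add]
      conv_lhs => rw [h1]
      rw [comb_add, comb_smul, aeval_X]
    have hv₁ : NN v₁ v₂ (comb L t a₁ e) < γ := by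
      refine (heON.lt_iff a₁ γ hγ).2 fun i => (hG.lt_iff _ γ hγ).2 fun k => ?_
      rw [ha₁, coeff_divX]
      exact hcoef i _
    have hv₀ : NN v₁ v₂ (comb L t a₀ e) < γ := by
      refine (heON.lt_iff a₀ γ hγ).2 fun i => (hG.lt_iff _ γ hγ).2 fun k => ?_
      rw [ha₀, coeff_C]
      split_ifs
      · exact hcoef i 0
      · rw [map_zero, map_zero]; exact zero_lt_iff.2 hγ
    -- apply the induction hypothesis to `x' = t^(-m) comb a₁ e`
    set x' : F := (t⁻¹) ^ m * comb L t a₁ e with hx'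
    have hx'v : NN v₁ v₂ x' < γ := by
      rw [hx', S.NN_t_inv_pow_mul]; exact hv₁
    have hx'm : t ^ m * x' ∈ Λ0 := by
      have : t ^ m * x' = comb L t a₁ e := by
        rw [hx', ← mul_assoc, ← mul_pow, mul_inv_cancel₀ ht, one_pow, one_mul]
      rw [this]
      exact he.comb_mem _
    obtain ⟨x0, z, hxz, hx0, hz, hvx0, hvz⟩ := ih x' hx'v hx'm
    -- the remainder
    set z' : F := (t⁻¹) ^ (m + 1) * ∑ i, algebraMap L F ((a i).coeff 0) * ((t⁻¹) ^ s * e i)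
      with hz'
    have hz'mem : z' ∈ Λoo :=
      he'.pow_mul_mem _ (he'.sum_mem _ _ fun i _ => he'.algebraMap_mul_mem _ (hs i))
    have hz'eq : t ^ s * z' = (t⁻¹) ^ (m + 1) * comb L t a₀ e := by
      have h1 : ∑ i, algebraMap L F ((a i).coeff 0) * ((t⁻¹) ^ s * e i)
          = (t⁻¹) ^ s * comb L t a₀ e := by
        rw [comb, Finset.mul_sum]
        refine Finset.sum_congr rfl fun i _ => ?_
        rw [ha₀, aeval_C]; ring
      rw [hz', h1]
      have h2 : t ^ s * (t⁻¹) ^ s = 1 := by rw [← mul_pow, mul_inv_cancel₀ ht, one_pow]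
      calc t ^ s * ((t⁻¹) ^ (m + 1) * ((t⁻¹) ^ s * comb L t a₀ e))
          = (t ^ s * (t⁻¹) ^ s) * ((t⁻¹) ^ (m + 1) * comb L t a₀ e) := by ring
        _ = _ := by rw [h2, one_mul]
    have hz'v : NN v₁ v₂ z' < γ := by
      have : NN v₁ v₂ z' = NN v₁ v₂ (t ^ s * z') := (S.NN_t_pow_mul s z').symm
      rw [this, hz'eq, S.NN_t_inv_pow_mul]
      exact hv₀
    refine ⟨x0, z + z', ?_, hx0, he'.add_mem hz hz'mem, hvx0, NN_add_lt hvz hz'v⟩
    have hx_eq : x = x' + (t⁻¹) ^ (m + 1) * comb L t a₀ e := by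
      have h3 : x = (t⁻¹) ^ (m + 1) * (t ^ (m + 1) * x) := by
        rw [← mul_assoc, ← mul_pow, inv_mul_cancel₀ ht, one_pow, one_mul]
      rw [h3, ha, hsplit, hx', mul_add, pow_succ, ← mul_assoc, mul_assoc ((t⁻¹) ^ m) t⁻¹ t,
        inv_mul_cancel₀ ht, mul_one]
    rw [hx_eq, hxz, mul_add, hz'eq]
    ring

/-- **P7.**  PROOF.  `t^m x = comb a e`, all coefficients of the `a_i` have `v < γ` (`ON.lt_iff`, `Gauss.lt_iff`, `v t = 1`).  Split
`a_i = X^m * hi_i + lo_i`, `deg lo_i < m` (`divX`/`modByMonic (X^m)` or coefficientwise).  `x0 = comb hi e`.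
`t^(-m) lo_i(t) = ρ_i(1/t)` with `ρ_i = reflect m lo_i` (so `X ∣ ρ_i`).
`z = ∑ ρ_i(1/t) * ((t⁻¹)^s * e_i) ∈ Λoo` (`Λoo` is stable under `L[1/t]`-combinations because it has a basis),
`t^s z = t^(-m) comb lo e`, `v z = v (comb lo e) < γ`. -/
theorem split2 (S : Setup L v₁ v₂ t) {d : ℕ} (Λ0 Λoo : Set F) (e e' : Fin d → F)
    (he : IsBasis L t e Λ0) (heON : ON2 L v₁ v₂ t e) (he' : IsBasis L t⁻¹ e' Λoo)
    (s : ℕ) (hs : ∀ i, (t⁻¹) ^ s * e i ∈ Λoo)
    (x : F) (γ : Γ₀) (hx : NN v₁ v₂ x < γ) (hxm : ∃ m : ℕ, t ^ m * x ∈ Λ0) :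
    ∃ x0 z : F, x = x0 + t ^ s * z ∧ x0 ∈ Λ0 ∧ z ∈ Λoo ∧ NN v₁ v₂ x0 < γ ∧ NN v₁ v₂ z < γ := by
  obtain ⟨m, hm⟩ := hxm
  exact split2_aux S Λ0 Λoo e e' he heON he' s hs γ m x hx hm

/-- **P8.**  PROOF.  Suppose `Λ0 ∩ Λoo = {0}`.  Let `D` be as in `exists_degree_bound`,
`W' = {h : Fin d → degreeLT/coefficient vectors of degree ≤ D | t^s comb t⁻¹ h e' ∈ Λ0}`, an `L`-subspace of `L^(d(D+1))`, and
`Pol : W' → L^(d s)` the coefficients of index `< s`.  `Pol h = 0` means `X^s ∣ h_j`, i.e. `t^s comb t⁻¹ h e' ∈ Λoo`; so `Pol` is injective, has a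
left inverse (`LinearMap.exists_leftInverse_of_injective`), which composed with the inclusion is bounded by `C` (`exists_bound_linearMap`).  Apply the hypothesis with
`γ = C⁻¹`: `t^(-s) G = comb t⁻¹ (X^s g' + ζ) e'`, the coefficients of index `< s` are those of `ζ`, of `v < γ`
(`ON`, `Gauss.inv`); so all coefficients of `h` have `v < C γ = 1`, so `v G < 1`: contradiction. -/
theorem exists_global2 (S : Setup L v₁ v₂ t) {d : ℕ} (Λ0 Λoo : Set F) (e e' : Fin d → F)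
    (he : IsBasis L t e Λ0) (he' : IsBasis L t⁻¹ e' Λoo) (he'ON : ON2 L v₁ v₂ t⁻¹ e')
    (s₂ : ℕ) (hs₂ : ∀ i, (t⁻¹) ^ s₂ * e i ∈ Λoo) (s : ℕ)
    (hyp : ∀ γ : Γ₀, γ ≠ 0 → ∃ G Goo z : F, G ∈ Λ0 ∧ Goo ∈ Λoo ∧ z ∈ Λoo ∧ G = Goo + t ^ s * z ∧
      NN v₁ v₂ z < γ ∧ NN v₁ v₂ G = 1) :
    ∃ y : F, y ≠ 0 ∧ y ∈ Λ0 ∧ y ∈ Λoo := by
  by_contra hcon
  push Not at hcon
  have hG := S.G1
  have ht : t ≠ 0 := hG.ne_zero
  have htu : ∀ m : ℕ, t ^ m * (t⁻¹) ^ m = 1 := fun m => by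
    rw [← mul_pow, mul_inv_cancel₀ ht, one_pow]
  obtain ⟨D, hD⟩ := exists_degree_bound hG Λ0 Λoo e e' he he' s₂ hs₂ s
  -- the subspace `W`
  let W : Submodule L (Fin d × Fin (D + 1) → L) :=
    { carrier := {c | t ^ s * comb L t⁻¹ (toPoly L d D c) e' ∈ Λ0}
      add_mem' := fun {a b} ha hb => by
        simp only [Set.mem_ofPred_eq] at ha hb ⊢
        rw [map_add, comb_add, mul_add]
        exact he.add_mem ha hb
      zero_mem' := by
        simp only [Set.mem_ofPred_eq]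
        rw [map_zero, comb_zero', mul_zero]
        exact he.zero_mem
      smul_mem' := fun c a ha => by
        simp only [Set.mem_ofPred_eq] at ha ⊢
        rw [map_smul, comb_smul_const, mul_left_comm]
        exact he.algebraMap_mul_mem c ha }
  have hWmem : ∀ c, c ∈ W ↔ t ^ s * comb L t⁻¹ (toPoly L d D c) e' ∈ Λ0 := fun c => Iff.rfl
  -- the polar part
  let Pol : (Fin d × Fin (D + 1) → L) →ₗ[L] (Fin d × Fin s → L) :=
    LinearMap.pi fun jk => (lcoeff L (jk.2 : ℕ)).comp ((LinearMap.proj jk.1).comp (toPoly L d D))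
  have hPol : ∀ c jk, Pol c jk = (toPoly L d D c jk.1).coeff (jk.2 : ℕ) := fun c jk => rfl
  have hinj : LinearMap.ker (Pol.domRestrict W) = ⊥ := by
    rw [LinearMap.ker_eq_bot']
    rintro ⟨c, hc⟩ hc0
    rw [LinearMap.domRestrict_apply] at hc0
    have hdvd : ∀ j, X ^ s ∣ toPoly L d D c j := fun j => by
      rw [X_pow_dvd_iff]
      intro k hk
      have := congrFun hc0 (j, ⟨k, hk⟩)
      rwa [hPol] at this
    choose h' hh' using hdvd
    have e1 : t ^ s * comb L t⁻¹ (toPoly L d D c) e' = comb L t⁻¹ h' e' := by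
      have : toPoly L d D c = fun j => X ^ s * h' j := funext hh'
      rw [this, comb_smul, map_pow, aeval_X, ← mul_assoc, htu, one_mul]
    have e2 : comb L t⁻¹ h' e' = 0 := by
      by_contra hne
      exact hcon _ hne (e1 ▸ (hWmem c).1 hc) (he'.comb_mem h')
    have e3 : h' = 0 := he'.1 h' e2
    have e4 : c = 0 := by
      funext jk
      obtain ⟨j, k⟩ := jk
      have := coeff_toPoly d D c j (k : ℕ)
      rw [dif_pos k.2, hh' j, e3] at this
      simpa using this.symm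
    exact Subtype.ext e4
  obtain ⟨g, hg⟩ := LinearMap.exists_leftInverse_of_injective (Pol.domRestrict W) hinj
  obtain ⟨C, hC0, hC⟩ := exists_bound_linearMap (v := v₁) (W.subtype.comp g)
  have hγ : C⁻¹ ≠ 0 := inv_ne_zero hC0
  obtain ⟨G, Goo, z, hGmem, hGoo, hz, hGeq, hvz, hvG⟩ := hyp C⁻¹ hγ
  obtain ⟨g', rfl⟩ := (he'.2 _).1 hGoo
  obtain ⟨ζ, rfl⟩ := (he'.2 _).1 hz
  set h : Fin d → L[X] := (fun j => X ^ s * g' j) + ζ with hh
  have hGh : t ^ s * comb L t⁻¹ h e' = G := by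
    rw [hh, comb_add, comb_smul, map_pow, aeval_X, mul_add, ← mul_assoc, htu, one_mul, hGeq]
  have hdeg : ∀ j, (h j).natDegree ≤ D := hD h (hGh ▸ hGmem)
  set c : Fin d × Fin (D + 1) → L := fun jk => (h jk.1).coeff jk.2 with hc
  have hcP : toPoly L d D c = h := toPoly_of_natDegree_le d D h hdeg
  have hcW : c ∈ W := by
    rw [hWmem, hcP, hGh]; exact hGmem
  have hsmall : ∀ jk, v₁ (algebraMap L F (Pol c jk)) < C⁻¹ := by
    rintro ⟨j, k⟩
    rw [hPol, hcP, hh]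
    simp only [Pi.add_apply, coeff_add]
    rw [coeff_X_pow_mul', if_neg (by have := k.2; omega), zero_add]
    exact (hG.inv.lt_iff (ζ j) C⁻¹ hγ).1 ((he'ON.lt_iff ζ C⁻¹ hγ).1 hvz j) _
  have hSc : (W.subtype.comp g) (Pol c) = c := by
    have := LinearMap.congr_fun hg ⟨c, hcW⟩
    simp only [LinearMap.comp_apply, LinearMap.domRestrict_apply, LinearMap.id_apply] at this
    simp only [LinearMap.comp_apply, Submodule.subtype_apply]
    rw [this]
  have hall : ∀ jk, v₁ (algebraMap L F (c jk)) < 1 := fun jk => by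
    have := hC (Pol c) C⁻¹ hγ hsmall jk
    rwa [hSc, mul_inv_cancel₀ hC0] at this
  have hvh : NN v₁ v₂ (comb L t⁻¹ h e') < 1 := by
    refine (he'ON.lt_iff h 1 one_ne_zero).2 fun j => (hG.inv.lt_iff _ 1 one_ne_zero).2 fun m => ?_
    by_cases hm : m < D + 1
    · exact hall (j, ⟨m, hm⟩)
    · rw [coeff_eq_zero_of_natDegree_lt (lt_of_le_of_lt (hdeg j) (by omega)), map_zero, map_zero]
      exact zero_lt_one
  rw [← hGh, S.NN_t_pow_mul] at hvG
  exact absurd hvG hvh.ne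


end Fermat.Agent.TOR.KL2
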