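import Fermat.Agent.TOR.KL2.Frob
import Fermat.Agent.TOR.KL2.Newton
import Fermat.Agent.TOR.KL2.Split
import Fermat.Agent.GAL.KL.Const

/-!
# TOR / KL2 : the key lemma for two valuations (assembly)
-/

set_option autoImplicit false

namespace Fermat.Agent.TOR.KL2

open Polynomial Fermat.Agent.GAL.KL

variable {L F Γ₀ : Type*} [Field L] [Field F] [Algebra L F] [LinearOrderedCommGroupWithZero Γ₀]
variable {v₁ v₂ : Valuation F Γ₀} {t : F}

theorem NN_eq_one_of_sub_one_lt {x : F} (h : NN v₁ v₂ (x - 1) < 1) : NN v₁ v₂ x = 1 := by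
  rw [NN, v_eq_one_of_sub_one_lt' (NN_lt_iff.1 h).1, v_eq_one_of_sub_one_lt' (NN_lt_iff.1 h).2,
    max_self]

/-- If `w ≡ 1` and both charts carry a section `≡ 1` of the class of `w`, then `w` is an `n`-th power. -/
theorem pow_of_near_one [IsAlgClosed L] (hA₁ : Arch v₁) (hA₂ : Arch v₂) (S : Setup L v₁ v₂ t)
    {d : ℕ} (β : Fin d → F) (hβ : ON2 L v₁ v₂ t β) (hβs : Spans L t β)
    (b0 : Fin d → F) (hb0 : IsBasis L t b0 (BB L t))
    (boo : Fin d → F) (hboo : IsBasis L t⁻¹ boo (BB L t⁻¹))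
    {n : ℕ} (hn : 0 < n) (hvn : v₁ (n : F) = 1)
    {w : F} (hw : NN v₁ v₂ (w - 1) < 1)
    (h0 : ∃ G ∈ II L t n w, NN v₁ v₂ (G - 1) < 1)
    (hoo : ∃ G ∈ II L t⁻¹ n w, NN v₁ v₂ (G - 1) < 1) :
    ∃ y : F, y ^ n = w := by
  have hG := S.G1
  have hvn₂ : v₂ (n : F) = 1 := by rw [← S.natCast_eq]; exact hvn
  have ht : t ≠ 0 := hG.ne_zero
  have hGi : Gauss L v₁ t⁻¹ := hG.inv
  have Si : Setup L v₁ v₂ t⁻¹ := S.inv
  have hβi : ON2 L v₁ v₂ t⁻¹ β := hβ.inv S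
  have hβsi : Spans L t⁻¹ β := hβs.inv ht
  have hvw : v₁ w = 1 := v_eq_one_of_sub_one_lt' (NN_lt_iff.1 hw).1
  have hw0 : w ≠ 0 := fun h => by rw [h, map_zero] at hvw; exact zero_ne_one hvw
  -- orthonormal bases of the two lattices
  obtain ⟨a, ha⟩ := exists_basis_II hG.inj β hβs b0 hb0 hn hw0
  obtain ⟨e, he, heON⟩ := exists_ON2_basis S β hβ hβs _ a ha
  obtain ⟨a', ha'⟩ := exists_basis_II hGi.inj β hβsi boo hboo hn hw0
  obtain ⟨e', he', he'ON⟩ := exists_ON2_basis Si β hβi hβsi _ a' ha'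
  -- shifts
  have hemem : ∀ i, e i ∈ II L t n w := fun i =>
    (he.2 (e i)).mpr ⟨Pi.single i 1, by
      simp [comb, Pi.single_apply, Finset.sum_ite_eq']⟩
  have hshift : ∃ s : ℕ, ∀ i, (t⁻¹) ^ s * e i ∈ II L t⁻¹ n w := by
    have h1 : ∀ i, ∃ m₀ : ℕ, ∀ m, m₀ ≤ m → (t⁻¹) ^ m * e i ∈ II L t⁻¹ n w := fun i =>
      II.shift (t := t⁻¹) (inv_ne_zero ht) hn (by rw [inv_inv]; exact hemem i)
    choose m₀ hm₀ using h1
    exact ⟨Finset.univ.sup m₀, fun i => hm₀ i _ (Finset.le_sup (Finset.mem_univ i))⟩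
  obtain ⟨s, hs⟩ := hshift
  obtain ⟨g0, hg0, hg01⟩ := h0
  obtain ⟨goo, hgoo, hgoo1⟩ := hoo
  -- a global section
  obtain ⟨y, hy0, hy1, hy2⟩ := exists_global2 S (II L t n w) (II L t⁻¹ n w) e e' he he' he'ON s hs s
    (by
      intro γ hγ
      obtain ⟨G0, hG0, hG0γ, hG01⟩ := newton2 hA₁ hA₂ hvn hvn₂ hg0 hg01 hw (min γ 1)
        (by rcases min_choice γ 1 with h | h <;> rw [h]; exacts [hγ, one_ne_zero])
      obtain ⟨Goo, hGoo, hGooγ, hGoo1⟩ := newton2 hA₁ hA₂ hvn hvn₂ hgoo hgoo1 hw (min γ 1)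
        (by rcases min_choice γ 1 with h | h <;> rw [h]; exacts [hγ, one_ne_zero])
      have hclose : NN v₁ v₂ (G0 - Goo) < min γ 1 :=
        close2 hvn hvn₂ hw hG01 hGoo1 _ hG0γ hGooγ
      have hxm : ∃ m : ℕ, t ^ m * (G0 - Goo) ∈ II L t n w := by
        obtain ⟨m₀, hm₀⟩ := II.shift ht hn hGoo
        refine ⟨m₀, ?_⟩
        rw [mul_sub]
        refine II.sub hn (II.mul ?_ hG0) (hm₀ m₀ le_rfl)
        have := IsInt.aeval (L := L) (t := t) (X ^ m₀)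
        simpa using this
      obtain ⟨x0, z, hxz, hx0, hz, hvx0, hvz⟩ :=
        split2 S (II L t n w) (II L t⁻¹ n w) e e' he heON he' s hs (G0 - Goo) _ hclose hxm
      refine ⟨G0 - x0, Goo, z, II.sub hn hG0 hx0, hGoo, hz, ?_, lt_of_lt_of_le hvz (min_le_left _ _), ?_⟩
      · rw [sub_eq_iff_eq_add] at hxz
        rw [hxz]; ring
      · apply NN_eq_one_of_sub_one_lt
        have h1 : G0 - x0 - 1 = (G0 - 1) - x0 := by ring
        rw [h1]
        exact NN_sub_lt hG01 (lt_of_lt_of_le hvx0 (min_le_right _ _)))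
  -- conclusion
  obtain ⟨c, hc⟩ := const_of_isInt_both hG.inj hy1 hy2
  have hc0 : c ≠ 0 := by
    rintro rfl
    rw [map_zero] at hc
    exact (mul_ne_zero (pow_ne_zero n hy0) hw0) hc
  obtain ⟨c₁, hc₁⟩ := IsAlgClosed.exists_pow_nat_eq c hn
  have hc₁0 : c₁ ≠ 0 := by
    rintro rfl
    rw [zero_pow hn.ne'] at hc₁
    exact hc0 hc₁.symm
  refine ⟨algebraMap L F c₁ / y, ?_⟩
  rw [div_pow, ← map_pow, hc₁, ← hc]
  field_simp

/-- **KEY LEMMA K2.**  `L` algebraically closed of characteristic zero, `v₁ v₂` rank one valuations of `F`, both Gauss on `L[t]`,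
`β` an `L(t)`-basis of `F`, orthonormal for the sup norm; both reduced charts have two `n`-root closed branches crossing at a reduced
conductor; `φ` is a ring endomorphism which is "Frobenius of exponent `Q`" on the crossing points.
If `w ≡ 1` for both valuations and `n ∣ div w`, then `φ w / w ^ Q` is an `n`-th power in `F`. -/
theorem keyLemma2 [IsAlgClosed L] [CharZero L] (hA₁ : Arch v₁) (hA₂ : Arch v₂)
    (S : Setup L v₁ v₂ t) {d : ℕ} (β : Fin d → F) (hβ : ON2 L v₁ v₂ t β) (hβs : Spans L t β)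
    {n : ℕ} (hn : 0 < n) (hvn : v₁ (n : F) = 1)
    (hC0 : Chart L v₁ v₂ t n) (hCoo : Chart L v₁ v₂ t⁻¹ n)
    (φ : F →+* F) {Q : ℕ} (hQ : 0 < Q)
    (hφ0 : FrobLike L v₁ v₂ t φ Q) (hφoo : FrobLike L v₁ v₂ t⁻¹ φ Q)
    {w : F} (hw : NN v₁ v₂ (w - 1) < 1)
    (hU0 : ∀ c : L, LocPow L t n w c) (hUoo : ∀ c : L, LocPow L t⁻¹ n w c)
    (hU0' : ∀ c : L, LocPow L t n (φ w / w ^ Q) c)
    (hUoo' : ∀ c : L, LocPow L t⁻¹ n (φ w / w ^ Q) c) :
    ∃ y : F, y ^ n = φ w / w ^ Q := by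
  have hG := S.G1
  obtain ⟨b0, hb0⟩ := exists_basis_BB hG.inj β (hβ.inj S) hβs
  obtain ⟨boo, hboo⟩ := exists_basis_BB hG.inv.inj β ((hβ.inv S).inj S.inv) (hβs.inv hG.ne_zero)
  exact pow_of_near_one hA₁ hA₂ S β hβ hβs b0 hb0 boo hboo hn hvn (NN_frob_sub_one_lt hφ0 hw)
    (near_one_frob S β hβ hβs b0 hb0 hn hw hC0 φ hQ hφ0 hU0 hU0')
    (near_one_frob S.inv β (hβ.inv S) (hβs.inv hG.ne_zero) boo hboo hn hw hCoo φ hQ hφoo hUoo hUoo')

end Fermat.Agent.TOR.KL2
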