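import Fermat.Agent.TOR.KL2.Deg

/-!
# TOR / KL2 / N2 : the "index count along a submodule"   (Mathlib + DEG only)

This lemma replaces all the geometry of the nodes in `NearOne2`.
-/

set_option autoImplicit false

namespace Fermat.Agent.TOR.KL2

open Polynomial

/-- linear algebra core of `lemN`: `Λ, Q` of the same finite codimension, `Λ ⊓ 𝔓 ≤ Q`,
`Λ ≤ Q ⊔ 𝔓`.  Then `Q ⊓ 𝔓 ≤ Λ` and `Q ≤ Λ ⊔ 𝔓`. -/
theorem lemN_abstract {k V : Type*} [Field k] [AddCommGroup V] [Module k V]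
    (Λ Q 𝔓 : Submodule k V) [Module.Finite k (V ⧸ Λ)] [Module.Finite k (V ⧸ Q)]
    (hfr : Module.finrank k (V ⧸ Λ) = Module.finrank k (V ⧸ Q))
    (ha : Λ ⊓ 𝔓 ≤ Q) (hb : Λ ≤ Q ⊔ 𝔓) : Q ⊓ 𝔓 ≤ Λ ∧ Q ≤ Λ ⊔ 𝔓 := by
  set S : Submodule k V := Λ ⊓ Q with hS
  have hfin : Module.Finite k (V ⧸ S) := by
    let f : V →ₗ[k] (V ⧸ Λ) × (V ⧸ Q) := Λ.mkQ.prod Q.mkQ
    have hker : LinearMap.ker f = S := by
      simp [f, LinearMap.ker_prod, hS]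
    have hinj : Function.Injective (S.liftQ f hker.ge) := by
      rw [← LinearMap.ker_eq_bot]
      exact Submodule.ker_liftQ_eq_bot _ _ _ hker.le
    exact Module.Finite.of_injective _ hinj
  have hΛ : Module.finrank k (V ⧸ Λ) + Module.finrank k (Λ.map S.mkQ) =
      Module.finrank k (V ⧸ S) := by
    rw [← (Submodule.quotientQuotientEquivQuotient S Λ inf_le_left).finrank_eq]
    exact Submodule.finrank_quotient_add_finrank _
  have hQ : Module.finrank k (V ⧸ Q) + Module.finrank k (Q.map S.mkQ) =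
      Module.finrank k (V ⧸ S) := by
    rw [← (Submodule.quotientQuotientEquivQuotient S Q inf_le_right).finrank_eq]
    exact Submodule.finrank_quotient_add_finrank _
  have hdim : Module.finrank k (Λ.map S.mkQ) = Module.finrank k (Q.map S.mkQ) := by omega
  have hcΛ : (Λ.map S.mkQ).comap S.mkQ = Λ := by
    rw [Submodule.comap_map_mkQ]; exact sup_eq_right.2 inf_le_left
  have hinf : Λ.map S.mkQ ⊓ 𝔓.map S.mkQ ≤ Q.map S.mkQ ⊓ 𝔓.map S.mkQ := by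
    refine le_inf ?_ inf_le_right
    rintro x ⟨hx1, ⟨π, hπ, rfl⟩⟩
    have h1 : π ∈ Λ := by rw [← hcΛ]; exact hx1
    exact ⟨π, ha ⟨h1, hπ⟩, rfl⟩
  have hsup : Λ.map S.mkQ ⊔ 𝔓.map S.mkQ ≤ Q.map S.mkQ ⊔ 𝔓.map S.mkQ := by
    rw [← Submodule.map_sup, ← Submodule.map_sup]
    exact Submodule.map_mono (sup_le hb le_sup_right)
  have e1 := Submodule.finrank_sup_add_finrank_inf_eq (Λ.map S.mkQ) (𝔓.map S.mkQ)
  have e2 := Submodule.finrank_sup_add_finrank_inf_eq (Q.map S.mkQ) (𝔓.map S.mkQ)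
  have l1 := Submodule.finrank_mono hinf
  have l2 := Submodule.finrank_mono hsup
  have hinf' : Λ.map S.mkQ ⊓ 𝔓.map S.mkQ = Q.map S.mkQ ⊓ 𝔓.map S.mkQ :=
    Submodule.eq_of_le_of_finrank_le hinf (by omega)
  have hsup' : Λ.map S.mkQ ⊔ 𝔓.map S.mkQ = Q.map S.mkQ ⊔ 𝔓.map S.mkQ :=
    Submodule.eq_of_le_of_finrank_le hsup (by omega)
  constructor
  · rintro x ⟨hx1, hx2⟩
    rw [← hcΛ]
    have : S.mkQ x ∈ Q.map S.mkQ ⊓ 𝔓.map S.mkQ := ⟨⟨x, hx1, rfl⟩, ⟨x, hx2, rfl⟩⟩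
    rw [← hinf'] at this
    exact this.1
  · intro x hx
    have h1 : S.mkQ x ∈ Q.map S.mkQ ⊔ 𝔓.map S.mkQ := Submodule.mem_sup_left ⟨x, hx, rfl⟩
    rw [← hsup', ← Submodule.map_sup] at h1
    have h2 : x ∈ ((Λ ⊔ 𝔓).map S.mkQ).comap S.mkQ := h1
    rw [Submodule.comap_map_mkQ] at h2
    have h3 : S ⊔ (Λ ⊔ 𝔓) = Λ ⊔ 𝔓 := sup_eq_right.2 (inf_le_left.trans le_sup_left)
    rwa [h3] at h2

variable {k : Type*} [Field k] {d : ℕ}

/-- **KL2-N2.**  `Λ` = row space of `P`, `deg det P = d deg q` (so `dim M/Λ = dim M/qM`, `M = k[X]^d`), `𝔓 ≤ M`;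
(a) `Λ ∩ 𝔓 ⊆ q 𝔓`, (b) `Λ ⊆ q M + 𝔓`.  Then `q 𝔓 ⊆ Λ` and `q M ⊆ Λ + 𝔓`.
PROOF.  Let `D = det P * q`; `D M ⊆ Λ ∩ q M` (adjugate).  Work in the finite dimensional `k`-space `M' = M / D M` with the images
`Λ', Q', 𝔓'` of `Λ, q M, 𝔓`.  `dim Λ' = dim Q'` by DEG = `finrank_quot_range_vecMul` (applied to `P` and to `q • 1`).  `Λ' ∩ 𝔓' = image of Λ ∩ 𝔓` (modular law, `D M ⊆ Λ`)
`⊆ image of q 𝔓 ⊆ Q' ∩ 𝔓'`, and `Λ' + 𝔓' ⊆ Q' + 𝔓'`.  By `Submodule.finrank_sup_add_finrank_inf_eq` both inclusions are equalities. -/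
theorem lemN (P : Matrix (Fin d) (Fin d) k[X]) (q : k[X]) (hq : q ≠ 0) (hP : P.det ≠ 0)
    (hdeg : P.det.natDegree = d * q.natDegree) (𝔓 : Submodule k[X] (Fin d → k[X]))
    (ha : ∀ γ : Fin d → k[X], Matrix.vecMul γ P ∈ 𝔓 → ∃ g ∈ 𝔓, Matrix.vecMul γ P = q • g)
    (hb : ∀ γ : Fin d → k[X], ∃ g : Fin d → k[X], Matrix.vecMul γ P - q • g ∈ 𝔓) :
    (∀ g ∈ 𝔓, ∃ γ : Fin d → k[X], Matrix.vecMul γ P = q • g) ∧
      ∀ g : Fin d → k[X], ∃ γ : Fin d → k[X], q • g - Matrix.vecMul γ P ∈ 𝔓 := by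
  classical
  set R : Matrix (Fin d) (Fin d) k[X] := q • (1 : Matrix (Fin d) (Fin d) k[X]) with hR
  have hRdet : R.det = q ^ d := by
    rw [hR, Matrix.det_smul, Matrix.det_one, mul_one, Fintype.card_fin]
  have hR0 : R.det ≠ 0 := by rw [hRdet]; exact pow_ne_zero _ hq
  have hRv : ∀ γ : Fin d → k[X], Matrix.vecMul γ R = q • γ := by
    intro γ
    rw [hR, Matrix.vecMul_smul, Matrix.vecMul_one]
  obtain ⟨fP, rP⟩ := finrank_quot_range_vecMul P hP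
  obtain ⟨fR, rR⟩ := finrank_quot_range_vecMul R hR0
  set Λ : Submodule k (Fin d → k[X]) := (LinearMap.range P.vecMulLinear).restrictScalars k with hΛ
  set Q : Submodule k (Fin d → k[X]) := (LinearMap.range R.vecMulLinear).restrictScalars k with hQ
  have eΛ := Submodule.Quotient.restrictScalarsEquiv k (LinearMap.range P.vecMulLinear)
  have eQ := Submodule.Quotient.restrictScalarsEquiv k (LinearMap.range R.vecMulLinear)
  have : Module.Finite k ((Fin d → k[X]) ⧸ Λ) := Module.Finite.equiv eΛ.symm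
  have : Module.Finite k ((Fin d → k[X]) ⧸ Q) := Module.Finite.equiv eQ.symm
  have hfr : Module.finrank k ((Fin d → k[X]) ⧸ Λ) = Module.finrank k ((Fin d → k[X]) ⧸ Q) := by
    rw [eΛ.finrank_eq, eQ.finrank_eq, rP, rR, hdeg, hRdet, natDegree_pow]
  have hmΛ : ∀ x : Fin d → k[X], x ∈ Λ ↔ ∃ γ : Fin d → k[X], Matrix.vecMul γ P = x := fun x =>
    Iff.rfl
  have hmQ : ∀ x : Fin d → k[X], x ∈ Q ↔ ∃ γ : Fin d → k[X], q • γ = x := by
    intro x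
    constructor
    · rintro ⟨γ, h⟩
      exact ⟨γ, by rw [← hRv]; exact h⟩
    · rintro ⟨γ, h⟩
      exact ⟨γ, by rw [← h, ← hRv]; rfl⟩
  obtain ⟨h1, h2⟩ := lemN_abstract Λ Q (𝔓.restrictScalars k) hfr
    (by
      rintro x ⟨hx1, hx2⟩
      obtain ⟨γ, rfl⟩ := (hmΛ x).1 hx1
      obtain ⟨g, -, hg⟩ := ha γ hx2
      exact (hmQ _).2 ⟨g, hg.symm⟩)
    (by
      intro x hx
      obtain ⟨γ, rfl⟩ := (hmΛ x).1 hx
      obtain ⟨g, hg⟩ := hb γ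
      have : Matrix.vecMul γ P = q • g + (Matrix.vecMul γ P - q • g) := by abel
      rw [this]
      exact Submodule.add_mem_sup ((hmQ _).2 ⟨g, rfl⟩) hg)
  constructor
  · intro g hg
    exact (hmΛ _).1 (h1 ⟨(hmQ _).2 ⟨g, rfl⟩, 𝔓.smul_mem q hg⟩)
  · intro g
    obtain ⟨y, hy, z, hz, hyz⟩ := Submodule.mem_sup.1 (h2 ((hmQ _).2 ⟨g, rfl⟩))
    obtain ⟨γ, rfl⟩ := (hmΛ y).1 hy
    refine ⟨γ, ?_⟩
    rw [← hyz, add_sub_cancel_left]
    exact hz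

end Fermat.Agent.TOR.KL2
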