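import Fermat.Agent.TOR.KL2.Data
import Fermat.Agent.TOR.KL2.LemN

/-!
# TOR / KL2 : `NearOne2`

`w ≡ 1` for both valuations, `n ∣ div w` on the chart `t`.  `I = II L t n w`, `B = BB L t`, `O = {NN ≤ 1}`.  Then
* every `c ∈ B ∩ O` with `v₁ c < 1` (an element of the conductor `0 × c₂`) is congruent to an element of `I`;
* every `b₀ ∈ B ∩ O` is congruent modulo `v₁` to an element of `I ∩ O`.
-/

set_option autoImplicit false

namespace Fermat.Agent.TOR.KL2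

open Polynomial Fermat.Agent.GAL.KL

variable {L F Γ₀ : Type*} [Field L] [Field F] [Algebra L F] [LinearOrderedCommGroupWithZero Γ₀]
variable {v₁ v₂ : Valuation F Γ₀} {t : F} {d : ℕ}

/-! ### symmetry of the conductor condition -/

theorem Cond.symm {b : F} (hb : IsInt L t b) (h : Cond L v₁ v₂ t b) : Cond L v₂ v₁ t b := by
  obtain ⟨c, hc, h1, h2⟩ := h
  refine ⟨b - c, hb.sub hc, ?_, h1⟩
  rwa [sub_sub_cancel]

theorem Rad.symm (h : Rad L v₁ v₂ t) : Rad L v₂ v₁ t := by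
  intro b m hm hb h2 h1 hc
  exact (h b m hm hb h1 h2 (hc.symm (hb.pow m))).symm hb

theorem Chart.symm {n : ℕ} (h : Chart L v₁ v₂ t n) : Chart L v₂ v₁ t n :=
  ⟨h.rc2, h.rc1, h.rad.symm⟩

/-! ### elements of `I ∩ O` -/

theorem v_eq_one_of_sub_one_lt' {v : Valuation F Γ₀} {x : F} (h : v (x - 1) < 1) : v x = 1 := by
  have h1 : v (x - 1) < v (1 : F) := by rwa [map_one]
  have := Valuation.map_add_eq_of_lt_left v h1
  rw [add_sub_cancel, map_one] at this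
  exact this

/-- `pr₁ (I ∩ O) ⊆ pr₁ (B ∩ O)`. -/
theorem approx1 {n : ℕ} {w : F} (hw : NN v₁ v₂ (w - 1) < 1) (hrc : RootClosed2 L v₁ v₂ t n)
    {x : F} (hx : x ∈ II L t n w) (hx1 : NN v₁ v₂ x ≤ 1) :
    ∃ b' : F, IsInt L t b' ∧ NN v₁ v₂ b' ≤ 1 ∧ v₁ (x - b') < 1 := by
  obtain ⟨hw1, hw2⟩ := NN_lt_iff.1 hw
  obtain ⟨hx11, hx12⟩ := NN_le_iff.1 hx1
  have hvw1 := v_eq_one_of_sub_one_lt' hw1
  have hvw2 := v_eq_one_of_sub_one_lt' hw2
  obtain ⟨b', hb', hb'2, hb'1⟩ := hrc x (x ^ n * w) hx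
    (by rw [map_mul, map_pow, hvw1, mul_one]; exact pow_le_one' hx11 n)
    (by rw [map_mul, map_pow, hvw2, mul_one]; exact pow_le_one' hx12 n)
    (by
      have h1 : x ^ n - x ^ n * w = - (x ^ n * (w - 1)) := by ring
      rw [h1, Valuation.map_neg, map_mul, map_pow]
      exact (mul_le_of_le_one_left' (pow_le_one' hx11 n)).trans_lt hw1) hx11
  refine ⟨b', hb', NN_le_iff.2 ⟨?_, hb'2⟩, hb'1⟩
  have h1 : b' = x - (x - b') := by ring
  rw [h1]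
  exact (Valuation.map_sub v₁ _ _).trans (max_le hx11 hb'1.le)

/-- `(I ∩ O) ∩ (0 × κ₂) ⊆ 0 × c₂`. -/
theorem cond_of_lt {n : ℕ} (hn : 0 < n) {w : F} (hw : NN v₁ v₂ (w - 1) < 1)
    (hC : Chart L v₁ v₂ t n) {x : F} (hx : x ∈ II L t n w) (hx1 : v₁ x < 1) (hx2 : v₂ x ≤ 1) :
    ∃ c : F, IsInt L t c ∧ NN v₁ v₂ (x - c) < 1 := by
  obtain ⟨hw1, hw2⟩ := NN_lt_iff.1 hw
  have hvw1 := v_eq_one_of_sub_one_lt' hw1
  have hvw2 := v_eq_one_of_sub_one_lt' hw2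
  obtain ⟨b', hb', hb'le, hb'2⟩ := approx1 (v₁ := v₂) (v₂ := v₁) (by rwa [NN_comm]) hC.rc2 hx
    (NN_le_iff.2 ⟨hx2, hx1.le⟩)
  obtain ⟨hb'l2, hb'l1⟩ := NN_le_iff.1 hb'le
  have hcond : Cond L v₂ v₁ t (b' ^ n) := by
    refine ⟨x ^ n * w, hx, ?_, ?_⟩
    · have h1 : b' ^ n - x ^ n * w = (b' ^ n - x ^ n) - x ^ n * (w - 1) := by ring
      rw [h1]
      refine lt_of_le_of_lt (Valuation.map_sub v₂ _ _) (max_lt ?_ ?_)
      · exact NearOne.congr_pow (by rwa [Valuation.map_sub_swap]) hb'l2 hx2 n hn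
      · rw [map_mul, map_pow]
        exact (mul_le_of_le_one_left' (pow_le_one' hx2 n)).trans_lt hw2
    · rw [map_mul, map_pow, hvw1, mul_one]
      exact pow_lt_one₀ zero_le hx1 hn.ne'
  obtain ⟨c, hc, hc2, hc1⟩ := hC.rad.symm b' n hn hb' hb'l2 hb'l1 hcond
  refine ⟨c, hc, NN_lt_iff.2 ⟨?_, ?_⟩⟩
  · exact lt_of_le_of_lt (Valuation.map_sub v₁ _ _) (max_lt hx1 hc1)
  · have h1 : x - c = (x - b') + (b' - c) := by ring
    rw [h1]
    exact Valuation.map_add_lt v₂ hb'2 hc2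

/-! ### integral coordinate vectors -/

/-- evaluation of an integral coordinate vector. -/
noncomputable def ev (v₁ : Valuation F Γ₀) (t : F) (b : Fin d → F) (g : Fin d → (AL L v₁)[X]) : F :=
  comb L t (fun i => iot L v₁ (g i)) b

theorem ev_add (b : Fin d → F) (g g' : Fin d → (AL L v₁)[X]) :
    ev v₁ t b (g + g') = ev v₁ t b g + ev v₁ t b g' := by
  simp only [ev, comb, Pi.add_apply, map_add, add_mul, Finset.sum_add_distrib]

theorem ev_sub (b : Fin d → F) (g g' : Fin d → (AL L v₁)[X]) :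
    ev v₁ t b (g - g') = ev v₁ t b g - ev v₁ t b g' := by
  simp only [ev, comb, Pi.sub_apply, map_sub, sub_mul, Finset.sum_sub_distrib]

theorem ev_smul (b : Fin d → F) (c : (AL L v₁)[X]) (g : Fin d → (AL L v₁)[X]) :
    ev v₁ t b (c • g) = aeval t (iot L v₁ c) * ev v₁ t b g := by
  simp only [ev, comb, Pi.smul_apply, smul_eq_mul, map_mul, Finset.mul_sum, mul_assoc]

theorem ev_zero (b : Fin d → F) : ev v₁ t b (0 : Fin d → (AL L v₁)[X]) = 0 := by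
  simp [ev, comb]

theorem NN_ev_le (S : Setup L v₁ v₂ t) {b : Fin d → F} (hb : ON2 L v₁ v₂ t b)
    (g : Fin d → (AL L v₁)[X]) : NN v₁ v₂ (ev v₁ t b g) ≤ 1 :=
  (hb _ 1).2 fun i => v_aeval_iot_le S.G1 (g i)

theorem NN_ev_lt_iff (S : Setup L v₁ v₂ t) {b : Fin d → F} (hb : ON2 L v₁ v₂ t b)
    (g : Fin d → (AL L v₁)[X]) : NN v₁ v₂ (ev v₁ t b g) < 1 ↔ ∀ i, rho L v₁ (g i) = 0 := by
  rw [ev, hb.lt_iff _ 1 one_ne_zero]
  exact forall_congr' fun i => (rho_eq_zero_iff S.G1 (g i)).symm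

theorem exists_ev_eq (S : Setup L v₁ v₂ t) {Λ : Set F} {b : Fin d → F} (hbΛ : IsBasis L t b Λ)
    (hb : ON2 L v₁ v₂ t b) {x : F} (hx : x ∈ Λ) (hx1 : NN v₁ v₂ x ≤ 1) :
    ∃ g : Fin d → (AL L v₁)[X], ev v₁ t b g = x := by
  obtain ⟨p, hp⟩ := (hbΛ.2 x).1 hx
  have hple : ∀ i, v₁ (aeval t (p i)) ≤ 1 := (hb p 1).1 (hp ▸ hx1)
  obtain ⟨g, hg⟩ := exists_vec_iot_eq S.G1 hple
  refine ⟨g, ?_⟩
  rw [ev, hp]
  congr 1
  funext i
  exact hg i

theorem ev_mem {Λ : Set F} {b : Fin d → F} (hbΛ : IsBasis L t b Λ) (g : Fin d → (AL L v₁)[X]) :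
    ev v₁ t b g ∈ Λ := (hbΛ.2 _).2 ⟨_, rfl⟩

theorem ev_vecMul (q : (AL L v₁)[X]) (P : Matrix (Fin d) (Fin d) (AL L v₁)[X]) (e b : Fin d → F)
    (hP : ∀ i, aeval t (iot L v₁ q) * e i = comb L t (fun j => iot L v₁ (P i j)) b)
    (γ : Fin d → (AL L v₁)[X]) :
    ev v₁ t b (Matrix.vecMul γ P) = aeval t (iot L v₁ q) * ev v₁ t e γ := by
  have h1 : (fun j => iot L v₁ (Matrix.vecMul γ P j))
      = Matrix.vecMul (fun i => iot L v₁ (γ i)) (P.map (iot L v₁)) := by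
    funext j
    exact RingHom.map_vecMul (iot L v₁) P γ j
  rw [ev, h1, ← comb_comb]
  have h2 : (fun i => comb L t ((P.map (iot L v₁)) i) b)
      = fun i => aeval t (iot L v₁ q) * e i := by
    funext i
    exact (hP i).symm
  rw [h2, latA_comb_mul_right, ev]

/-- the submodule `0 × c₂` in coordinates. -/
noncomputable def PP (hG : Gauss L v₁ t) (b : Fin d → F) :
    Submodule (kL L v₁)[X] (Fin d → (kL L v₁)[X]) where
  carrier := {g | ∃ g' : Fin d → (AL L v₁)[X], (∀ i, rho L v₁ (g' i) = g i) ∧ v₁ (ev v₁ t b g') < 1}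
  add_mem' := by
    rintro g h ⟨g', hg', hg'v⟩ ⟨h', hh', hh'v⟩
    refine ⟨g' + h', fun i => ?_, ?_⟩
    · rw [Pi.add_apply, map_add, hg', hh', Pi.add_apply]
    · rw [ev_add]
      exact Valuation.map_add_lt v₁ hg'v hh'v
  zero_mem' := ⟨0, fun i => by simp, by rw [ev_zero, map_zero]; exact zero_lt_one⟩
  smul_mem' := by
    rintro c g ⟨g', hg', hg'v⟩
    obtain ⟨c', hc'⟩ := rho_surjective L v₁ c
    refine ⟨c' • g', fun i => ?_, ?_⟩
    · rw [Pi.smul_apply, smul_eq_mul, map_mul, hg', hc', Pi.smul_apply, smul_eq_mul]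
    · rw [ev_smul, map_mul]
      exact (mul_le_of_le_one_left' (v_aeval_iot_le hG c')).trans_lt hg'v

theorem mem_PP_iff (S : Setup L v₁ v₂ t) {b : Fin d → F} (hb : ON2 L v₁ v₂ t b)
    {g : Fin d → (kL L v₁)[X]} {g' : Fin d → (AL L v₁)[X]} (hg : ∀ i, rho L v₁ (g' i) = g i) :
    g ∈ PP S.G1 b ↔ v₁ (ev v₁ t b g') < 1 := by
  constructor
  · rintro ⟨g₀, hg₀, hv⟩
    have h1 : NN v₁ v₂ (ev v₁ t b (g' - g₀)) < 1 := by
      rw [NN_ev_lt_iff S hb]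
      intro i
      rw [Pi.sub_apply, map_sub, hg, hg₀, sub_self]
    have h2 : ev v₁ t b g' = ev v₁ t b g₀ + ev v₁ t b (g' - g₀) := by
      rw [ev_sub]; ring
    rw [h2]
    exact Valuation.map_add_lt v₁ hv (NN_lt_iff.1 h1).1
  · intro hv
    exact ⟨g', hg, hv⟩

/-- **NearOne2**, with given data. -/
theorem near2_core (S : Setup L v₁ v₂ t) {n : ℕ} (hn : 0 < n) {w : F}
    (hw : NN v₁ v₂ (w - 1) < 1) (hC : Chart L v₁ v₂ t n)
    (b e : Fin d → F) (q : (AL L v₁)[X]) (P : Matrix (Fin d) (Fin d) (AL L v₁)[X])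
    (hbB : IsBasis L t b (BB L t)) (hb : ON2 L v₁ v₂ t b)
    (heI : IsBasis L t e (II L t n w)) (he : ON2 L v₁ v₂ t e)
    (hq1 : v₁ (aeval t (iot L v₁ q)) = 1)
    (hP : ∀ i, aeval t (iot L v₁ q) * e i = comb L t (fun j => iot L v₁ (P i j)) b)
    (hdet : (P.map (rho L v₁)).det ≠ 0)
    (hdeg : (P.map (rho L v₁)).det.natDegree = d * (rho L v₁ q).natDegree) :
    (∀ c, IsInt L t c → v₁ c < 1 → v₂ c ≤ 1 → ∃ x ∈ II L t n w, NN v₁ v₂ (x - c) < 1) ∧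
      ∀ b₀, IsInt L t b₀ → NN v₁ v₂ b₀ ≤ 1 →
        ∃ x ∈ II L t n w, NN v₁ v₂ x ≤ 1 ∧ v₁ (x - b₀) < 1 := by
  have hq0 : rho L v₁ q ≠ 0 := rho_ne_zero_of_v_eq_one S.G1 hq1
  -- reduction of `vecMul`
  have hred : ∀ (γ : Fin d → (AL L v₁)[X]) (γ' : Fin d → (kL L v₁)[X]),
      (∀ i, rho L v₁ (γ i) = γ' i) →
      ∀ j, rho L v₁ (Matrix.vecMul γ P j) = Matrix.vecMul γ' (P.map (rho L v₁)) j := by
    intro γ γ' h j
    rw [RingHom.map_vecMul]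
    congr 2
    funext i
    exact h i
  have hNq : ∀ y : F, NN v₁ v₂ (aeval t (iot L v₁ q) * y) = NN v₁ v₂ y := by
    intro y
    rw [S.NN_aeval_mul, hq1, one_mul]
  have hvq : ∀ y : F, v₁ (aeval t (iot L v₁ q) * y) = v₁ y := by
    intro y
    rw [map_mul, hq1, one_mul]
  obtain ⟨H1, H2⟩ := lemN (P.map (rho L v₁)) (rho L v₁ q) hq0 hdet hdeg (PP S.G1 b)
    (by
      intro γ' hγ'
      obtain ⟨γ, hγ⟩ := exists_vec_rho_eq γ'
      have hx : ev v₁ t e γ ∈ II L t n w := ev_mem heI γ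
      have hxle := NN_ev_le S he γ
      have h1 : v₁ (ev v₁ t b (Matrix.vecMul γ P)) < 1 := (mem_PP_iff S hb (hred γ γ' hγ)).1 hγ'
      rw [ev_vecMul q P e b hP, hvq] at h1
      obtain ⟨c, hc, hxc⟩ := cond_of_lt hn hw hC hx h1 (NN_le_iff.1 hxle).2
      have hcle : NN v₁ v₂ c ≤ 1 := by
        have h2 : c = ev v₁ t e γ - (ev v₁ t e γ - c) := by ring
        rw [h2]
        exact NN_sub_le' hxle hxc.le
      have hc1 : v₁ c < 1 := by
        have h2 : c = ev v₁ t e γ - (ev v₁ t e γ - c) := by ring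
        rw [h2]
        exact lt_of_le_of_lt (Valuation.map_sub v₁ _ _) (max_lt h1 (NN_lt_iff.1 hxc).1)
      obtain ⟨g, hg⟩ := exists_ev_eq S hbB hb hc hcle
      refine ⟨fun i => rho L v₁ (g i), (mem_PP_iff S hb (fun _ => rfl)).2 (by rw [hg]; exact hc1), ?_⟩
      have h3 : NN v₁ v₂ (ev v₁ t b (Matrix.vecMul γ P - q • g)) < 1 := by
        rw [ev_sub, ev_vecMul q P e b hP, ev_smul, hg, ← mul_sub, hNq]
        exact hxc
      rw [NN_ev_lt_iff S hb] at h3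
      funext j
      have h4 := h3 j
      rw [Pi.sub_apply, map_sub, sub_eq_zero, hred γ γ' hγ, Pi.smul_apply, smul_eq_mul, map_mul] at h4
      rw [h4, Pi.smul_apply, smul_eq_mul])
    (by
      intro γ'
      obtain ⟨γ, hγ⟩ := exists_vec_rho_eq γ'
      have hx : ev v₁ t e γ ∈ II L t n w := ev_mem heI γ
      have hxle := NN_ev_le S he γ
      obtain ⟨b', hb', hb'le, hxb'⟩ := approx1 hw hC.rc1 hx hxle
      obtain ⟨g, hg⟩ := exists_ev_eq S hbB hb hb' hb'le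
      refine ⟨fun i => rho L v₁ (g i), ?_⟩
      refine (mem_PP_iff S hb (g' := Matrix.vecMul γ P - q • g) (fun j => ?_)).2 ?_
      · rw [Pi.sub_apply, map_sub, hred γ γ' hγ, Pi.smul_apply, smul_eq_mul, map_mul, Pi.sub_apply,
          Pi.smul_apply, smul_eq_mul]
      · rw [ev_sub, ev_vecMul q P e b hP, ev_smul, hg, ← mul_sub, hvq]
        exact hxb')
  constructor
  · intro c hc hc1 hc2
    obtain ⟨g, hg⟩ := exists_ev_eq S hbB hb hc (NN_le_iff.2 ⟨hc1.le, hc2⟩)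
    obtain ⟨γ', hγ'⟩ := H1 (fun i => rho L v₁ (g i))
      ((mem_PP_iff S hb (fun _ => rfl)).2 (by rw [hg]; exact hc1))
    obtain ⟨γ, hγ⟩ := exists_vec_rho_eq γ'
    refine ⟨ev v₁ t e γ, ev_mem heI γ, ?_⟩
    rw [← hNq, mul_sub, ← ev_vecMul q P e b hP, ← hg, ← ev_smul, ← ev_sub, NN_ev_lt_iff S hb]
    intro j
    rw [Pi.sub_apply, map_sub, hred γ γ' hγ, hγ', Pi.smul_apply, Pi.smul_apply, smul_eq_mul,
      smul_eq_mul, map_mul, sub_self]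
  · intro b₀ hb₀ hb₀le
    obtain ⟨g, hg⟩ := exists_ev_eq S hbB hb hb₀ hb₀le
    obtain ⟨γ', hγ'⟩ := H2 (fun i => rho L v₁ (g i))
    obtain ⟨γ, hγ⟩ := exists_vec_rho_eq γ'
    refine ⟨ev v₁ t e γ, ev_mem heI γ, NN_ev_le S he γ, ?_⟩
    have h1 : v₁ (ev v₁ t b (q • g - Matrix.vecMul γ P)) < 1 := by
      refine (mem_PP_iff S hb (fun j => ?_)).1 hγ'
      rw [Pi.sub_apply, map_sub, hred γ γ' hγ, Pi.smul_apply, smul_eq_mul, map_mul, Pi.sub_apply,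
        Pi.smul_apply, smul_eq_mul]
    rw [ev_sub, ev_vecMul q P e b hP, ev_smul, hg, ← mul_sub, hvq] at h1
    rwa [Valuation.map_sub_swap]

/-- **NearOne2.** -/
theorem near2 [IsAlgClosed L] (S : Setup L v₁ v₂ t) (β : Fin d → F)
    (hβ : ON2 L v₁ v₂ t β) (hβs : Spans L t β) (b : Fin d → F) (hb : IsBasis L t b (BB L t))
    {n : ℕ} (hn : 0 < n) {w : F} (hw : NN v₁ v₂ (w - 1) < 1) (hC : Chart L v₁ v₂ t n)
    (hU : ∀ c : L, LocPow L t n w c) :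
    (∀ c, IsInt L t c → v₁ c < 1 → v₂ c ≤ 1 → ∃ x ∈ II L t n w, NN v₁ v₂ (x - c) < 1) ∧
      ∀ b₀, IsInt L t b₀ → NN v₁ v₂ b₀ ≤ 1 →
        ∃ x ∈ II L t n w, NN v₁ v₂ x ≤ 1 ∧ v₁ (x - b₀) < 1 := by
  obtain ⟨b₁, e, q, P, hb₁, hb₁ON, he, heON, hq1, hP, hdet, hdeg⟩ :=
    exists_data S β hβ hβs b hb hn hw hU
  exact near2_core S hn hw hC b₁ e q P hb₁ hb₁ON he heON hq1 hP hdet hdeg

end Fermat.Agent.TOR.KL2
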