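import Fermat.Agent.TOR.KL2.Red
import Fermat.Agent.TOR.KL2.ONBasis
import Fermat.Agent.GAL.KL.Lattice
import Fermat.Agent.GAL.KL.Index
import Fermat.Agent.GAL.KL.NearOneAux
import Fermat.Agent.GAL.KL.NearOne

/-!
# TOR / KL2 : orthonormal bases of `B_t` and `I_t(w)` and the reduced transition matrix

Port of the first two thirds of `Fermat/Agent/GAL/KL/NearOne.lean` (`exists_near_one`, steps (a), (b), (d)) to the sup norm `NN v₁ v₂`:
* ON2-bases `b₁` of `BB L t`, `e` of `II L t n w` (`exists_ON2_basis`, `exists_basis_II`);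
* `q(t) e_i = comb (P i) b₁`, `q'(t) b₁_i = comb (P' i) e`, `r(t) w b₁_i = comb (W i) b₁`, normalised (`v₁ (q(t)) = 1` ...), so all entries are integral (ON2);
* `P P' = q q' • 1` ⇒ `v₁ (det P (t)) = 1`;  `W ≡ r • 1` (as `NN (w - 1) < 1`);
* `index_const`: `(det P)^n det W = C c₀ q^(dn) r^d`, so `v₁ c₀ = 1`;
* lift everything to `A[X]` (`exists_iot_eq`, `exists_mat_iot_eq`, `iot_injective`, `RingHom.map_det`) and apply `rho`:
  `(det P̄)^n r̄^d = C c̄₀ q̄^(dn) r̄^d`, `r̄, q̄, c̄₀ ≠ 0` ⇒ `det P̄ ≠ 0` and `n * natDegree (det P̄) = d n natDegree q̄`.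
-/

set_option autoImplicit false

namespace Fermat.Agent.TOR.KL2

open Polynomial Fermat.Agent.GAL.KL

variable {L F Γ₀ : Type*} [Field L] [Field F] [Algebra L F] [LinearOrderedCommGroupWithZero Γ₀]
variable {v₁ v₂ : Valuation F Γ₀} {t : F}

open NearOne in
/-- `exists_matrix_of_bases`, normalised (sup norm version). -/
theorem data_exists_matrix_normalised (S : Setup L v₁ v₂ t) {d : ℕ} (β : Fin d → F)
    (hβs : Spans L t β) (b : Fin d → F) (hb : ON2 L v₁ v₂ t b) (x : Fin d → F)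
    (hx : ∀ i, NN v₁ v₂ (x i) ≤ 1) :
    ∃ (q : L[X]) (P : Matrix (Fin d) (Fin d) L[X]), v₁ (aeval t q) = 1 ∧
      (∀ i, aeval t q * x i = comb L t (P i) b) ∧ ∀ i j, v₁ (aeval t (P i j)) ≤ 1 := by
  have hG := S.G1
  obtain ⟨q₀, P₀, hq₀, hP₀⟩ := exists_matrix_of_bases hG.inj β hβs b (hb.inj S) x
  obtain ⟨a, ha⟩ := hG.exists_const q₀
  have hq₀t : aeval t q₀ ≠ 0 := fun h => hq₀ (hG.inj q₀ h)
  have hva : v₁ (algebraMap L F a) ≠ 0 := by
    rw [← ha]; exact (Valuation.ne_zero_iff v₁).2 hq₀t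
  have hq1 : v₁ (aeval t (C a⁻¹ * q₀)) = 1 := by
    rw [map_mul, aeval_C, map_mul, map_inv₀, map_inv₀, ha]
    exact inv_mul_cancel₀ hva
  have hP : ∀ i, aeval t (C a⁻¹ * q₀) * x i = comb L t (fun j => C a⁻¹ * P₀ i j) b := by
    intro i
    rw [comb_mul_left', map_mul, mul_assoc, hP₀ i]
  refine ⟨C a⁻¹ * q₀, Matrix.of fun i j => C a⁻¹ * P₀ i j, hq1, hP, fun i j => ?_⟩
  refine (hb (fun j => C a⁻¹ * P₀ i j) 1).1 ?_ j
  rw [← hP i, S.NN_aeval_mul, hq1, one_mul]
  exact hx i

/-- `iot` commutes with determinants. -/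
theorem data_iot_det {d : ℕ} (P : Matrix (Fin d) (Fin d) (AL L v₁)[X]) :
    iot L v₁ P.det = (P.map (iot L v₁)).det := by
  rw [RingHom.map_det, RingHom.mapMatrix_apply]

/-- `rho` commutes with determinants. -/
theorem data_rho_det {d : ℕ} (P : Matrix (Fin d) (Fin d) (AL L v₁)[X]) :
    rho L v₁ P.det = (P.map (rho L v₁)).det := by
  rw [RingHom.map_det, RingHom.mapMatrix_apply]

open NearOne in
/-- **KL2-DATA.** -/
theorem exists_data [IsAlgClosed L] (S : Setup L v₁ v₂ t) {d : ℕ} (β : Fin d → F)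
    (hβ : ON2 L v₁ v₂ t β) (hβs : Spans L t β) (b : Fin d → F) (hb : IsBasis L t b (BB L t))
    {n : ℕ} (hn : 0 < n) {w : F} (hw : NN v₁ v₂ (w - 1) < 1) (hU : ∀ c : L, LocPow L t n w c) :
    ∃ (b₁ e : Fin d → F) (q : (AL L v₁)[X]) (P : Matrix (Fin d) (Fin d) (AL L v₁)[X]),
      IsBasis L t b₁ (BB L t) ∧ ON2 L v₁ v₂ t b₁ ∧ IsBasis L t e (II L t n w) ∧ ON2 L v₁ v₂ t e ∧
      v₁ (aeval t (iot L v₁ q)) = 1 ∧
      (∀ i, aeval t (iot L v₁ q) * e i = comb L t (fun j => iot L v₁ (P i j)) b₁) ∧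
      (P.map (rho L v₁)).det ≠ 0 ∧
      (P.map (rho L v₁)).det.natDegree = d * (rho L v₁ q).natDegree := by
  classical
  have hG := S.G1
  have hNw : NN v₁ v₂ w ≤ 1 := by
    have h1 : w = (w - 1) + 1 := by ring
    rw [h1]
    exact NN_add_le' hw.le NN_one.le
  have hw0 : w ≠ 0 := by
    rintro rfl
    rw [zero_sub, NN_neg, NN_one] at hw
    exact lt_irrefl _ hw
  -- orthonormal bases
  obtain ⟨b₁, hb₁, hb₁ON⟩ := exists_ON2_basis S β hβ hβs _ b hb
  obtain ⟨a, ha⟩ := exists_basis_II hG.inj β hβs b₁ hb₁ hn hw0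
  obtain ⟨e, he, heON⟩ := exists_ON2_basis S β hβ hβs _ a ha
  have hve : ∀ i, NN v₁ v₂ (e i) = 1 := fun i => heON.NN_eq_one i
  have hvb : ∀ i, NN v₁ v₂ (b₁ i) = 1 := fun i => hb₁ON.NN_eq_one i
  -- the matrices
  obtain ⟨q, P, hq1, hP, hPle⟩ :=
    data_exists_matrix_normalised S β hβs b₁ hb₁ON e (fun i => (hve i).le)
  obtain ⟨q', P', hq'1, hP', hP'le⟩ :=
    data_exists_matrix_normalised S β hβs e heON b₁ (fun i => (hvb i).le)
  obtain ⟨r, W, hr1, hW, hWle⟩ :=
    data_exists_matrix_normalised S β hβs b₁ hb₁ON (fun i => w * b₁ i)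
      (fun i => (NN_mul_le _ _).trans (by rw [hvb i, mul_one]; exact hNw))
  have hq0 : q ≠ 0 := by
    rintro rfl
    rw [map_zero, map_zero] at hq1
    exact zero_ne_one hq1
  have hr0 : r ≠ 0 := by
    rintro rfl
    rw [map_zero, map_zero] at hr1
    exact zero_ne_one hr1
  have hWr : ∀ i j, v₁ (aeval t (W i j - (Pi.single i r : Fin d → L[X]) j)) < 1 := by
    intro i j
    refine (hb₁ON.lt_iff (fun j => W i j - (Pi.single i r : Fin d → L[X]) j) 1 one_ne_zero).1 ?_ j
    rw [comb_sub']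
    have h1 : comb L t (fun j => W i j) b₁ = aeval t r * (w * b₁ i) := (hW i).symm
    have h2 : comb L t (fun j => (Pi.single i r : Fin d → L[X]) j) b₁ = aeval t r * b₁ i :=
      comb_single' i r b₁
    rw [h1, h2]
    have h3 : aeval t r * (w * b₁ i) - aeval t r * b₁ i = aeval t r * ((w - 1) * b₁ i) := by ring
    rw [h3, S.NN_aeval_mul, hr1, one_mul]
    refine lt_of_le_of_lt (NN_mul_le _ _) ?_
    rw [hvb i, mul_one]
    exact hw
  -- evaluation of determinants
  have hdet : ∀ N : Matrix (Fin d) (Fin d) L[X], aeval t N.det = (N.map (aeval t)).det := by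
    intro N
    rw [AlgHom.map_det, AlgHom.mapMatrix_apply]
  have hdetle : ∀ N : Matrix (Fin d) (Fin d) L[X], (∀ i j, v₁ (aeval t (N i j)) ≤ 1) →
      v₁ (aeval t N.det) ≤ 1 := by
    intro N hN
    rw [hdet]
    exact v_det_le_one _ fun i j => by rw [Matrix.map_apply]; exact hN i j
  -- (a) `det P` has Gauss norm one
  have hPP' : P * P' = (q * q') • (1 : Matrix (Fin d) (Fin d) L[X]) := by
    have h1 : ∀ i, Matrix.vecMul (P i) P' = Pi.single i (q * q') := by
      intro i
      have h2 : comb L t (fun j => Matrix.vecMul (P i) P' j - (Pi.single i (q * q') : Fin d → L[X]) j) e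
          = 0 := by
        rw [comb_sub']
        have h3 : comb L t (fun j => Matrix.vecMul (P i) P' j) e
            = comb L t (P i) (fun j => comb L t (P' j) e) := (comb_comb (P i) P' e).symm
        have h4 : comb L t (fun j => (Pi.single i (q * q') : Fin d → L[X]) j) e
            = aeval t (q * q') * e i := comb_single' i (q * q') e
        rw [h3, h4]
        have h5 : (fun j => comb L t (P' j) e) = fun j => aeval t q' * b₁ j := by
          funext j; exact (hP' j).symm
        rw [h5, comb_mul_right', ← hP i, map_mul]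
        ring
      have h6 := he.1 _ h2
      funext j
      have h7 := congrFun h6 j
      exact sub_eq_zero.1 h7
    ext i k : 2
    have h8 := congrFun (h1 i) k
    rw [Matrix.smul_apply, Matrix.one_apply, smul_eq_mul]
    rw [Pi.single_apply] at h8
    have h9 : (P * P') i k = Matrix.vecMul (P i) P' k := by
      simp [Matrix.mul_apply, Matrix.vecMul, dotProduct]
    rw [h9, h8]
    by_cases hik : i = k
    · subst hik; simp
    · rw [if_neg hik, if_neg (fun h => hik h.symm), mul_zero]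
  have hvP : v₁ (aeval t P.det) = 1 := by
    have h1 := congrArg Matrix.det hPP'
    rw [Matrix.det_mul, Matrix.det_smul, Matrix.det_one, mul_one, Fintype.card_fin] at h1
    have h2 := congrArg (fun p => v₁ (aeval t p)) h1
    simp only [map_mul, map_pow, hq1, hq'1, one_pow, mul_one] at h2
    exact eq_one_of_mul_eq_one h2 (hdetle P hPle) (hdetle P' hP'le)
  -- (b) `det W ≡ r ^ d`
  have hWdet : v₁ (aeval t W.det - aeval t r ^ d) < 1 := by
    have h1 : (aeval t r • (1 : Matrix (Fin d) (Fin d) F)).det = aeval t r ^ d := by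
      rw [Matrix.det_smul, Matrix.det_one, mul_one, Fintype.card_fin]
    rw [hdet, ← h1]
    refine congr_det _ _ (fun i j => by rw [Matrix.map_apply]; exact hWle i j) ?_ ?_
    · intro i j
      rw [Matrix.smul_apply, Matrix.one_apply, smul_eq_mul]
      split_ifs
      · rw [mul_one, hr1]
      · simp
    · intro i j
      have h2 := hWr i j
      rw [Matrix.map_apply, Matrix.smul_apply, Matrix.one_apply, smul_eq_mul]
      rw [map_sub, Pi.single_apply] at h2
      by_cases hij : i = j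
      · subst hij
        simpa using h2
      · rw [if_neg hij, mul_zero]
        rw [if_neg (fun h => hij h.symm), map_zero] at h2
        exact h2
  -- (d) the index is constant
  obtain ⟨c₀, -, hc₀⟩ := index_const hG.inj β hβs b₁ hb₁ hn hw0 e he hU q P hq0 hP r W hr0 hW
  have hev : aeval t P.det ^ n * aeval t W.det
      = algebraMap L F c₀ * (aeval t q ^ (d * n) * aeval t r ^ d) := by
    have h1 := congrArg (aeval t) hc₀
    simpa only [map_mul, map_pow, aeval_C] using h1
  have hvW : v₁ (aeval t W.det) = 1 := by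
    have h1 : v₁ (aeval t W.det - aeval t r ^ d) < v₁ (aeval t r ^ d) := by
      rw [map_pow, hr1, one_pow]; exact hWdet
    have h2 := Valuation.map_add_eq_of_lt_left v₁ h1
    rw [add_sub_cancel, map_pow, hr1, one_pow] at h2
    exact h2
  have hvc : v₁ (algebraMap L F c₀) = 1 := by
    have h1 := congrArg v₁ hev
    simp only [map_mul, map_pow, hvP, hvW, hq1, hr1, one_pow, mul_one] at h1
    exact h1.symm
  -- lifts to `A[X]`
  obtain ⟨qA, hqA⟩ := exists_iot_eq hG hq1.le
  obtain ⟨rA, hrA⟩ := exists_iot_eq hG hr1.le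
  obtain ⟨PA, hPA⟩ := exists_mat_iot_eq hG hPle
  obtain ⟨WA, hWA⟩ := exists_mat_iot_eq hG hWle
  let cA : AL L v₁ := ⟨c₀, hvc.le⟩
  have hidA : PA.det ^ n * WA.det = C cA * (qA ^ (d * n) * rA ^ d) := by
    apply iot_injective L v₁
    simp only [map_mul, map_pow, data_iot_det, hPA, hWA, hqA, hrA, iot_C]
    exact hc₀
  have hidk := congrArg (rho L v₁) hidA
  simp only [map_mul, map_pow, data_rho_det, rho_C] at hidk
  have hqb : rho L v₁ qA ≠ 0 := rho_ne_zero_of_v_eq_one hG (by rw [hqA]; exact hq1)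
  have hrb : rho L v₁ rA ≠ 0 := rho_ne_zero_of_v_eq_one hG (by rw [hrA]; exact hr1)
  have hcb : IsLocalRing.residue (AL L v₁) cA ≠ 0 := by
    rw [Ne, residue_eq_zero_iff]
    show ¬ v₁ (algebraMap L F c₀) < 1
    rw [hvc]
    exact lt_irrefl 1
  have hWb : WA.map (rho L v₁) = rho L v₁ rA • (1 : Matrix (Fin d) (Fin d) (kL L v₁)[X]) := by
    refine Matrix.ext fun i j => ?_
    rw [Matrix.map_apply, Matrix.smul_apply, Matrix.one_apply, smul_eq_mul]
    have h2 := hWr i j
    have hWij : iot L v₁ (WA i j) = W i j := by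
      rw [← hWA, Matrix.map_apply]
    rw [map_sub, Pi.single_apply] at h2
    by_cases hij : i = j
    · subst hij
      rw [if_pos rfl, mul_one, rho_eq_iff hG, hWij, hrA]
      simpa using h2
    · rw [if_neg hij, mul_zero, rho_eq_zero_iff hG, hWij]
      rw [if_neg (fun h => hij h.symm), map_zero, sub_zero] at h2
      exact h2
  rw [hWb, Matrix.det_smul, Matrix.det_one, mul_one, Fintype.card_fin, ← mul_assoc] at hidk
  have hid2 : (PA.map (rho L v₁)).det ^ n
      = C (IsLocalRing.residue (AL L v₁) cA) * rho L v₁ qA ^ (d * n) :=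
    mul_right_cancel₀ (pow_ne_zero d hrb) hidk
  have hrhs : C (IsLocalRing.residue (AL L v₁) cA) * rho L v₁ qA ^ (d * n) ≠ 0 :=
    mul_ne_zero (C_ne_zero.2 hcb) (pow_ne_zero _ hqb)
  have hdet0 : (PA.map (rho L v₁)).det ≠ 0 := by
    intro h
    rw [h, zero_pow hn.ne'] at hid2
    exact hrhs hid2.symm
  refine ⟨b₁, e, qA, PA, hb₁, hb₁ON, he, heON, by rw [hqA]; exact hq1, fun i => ?_, hdet0, ?_⟩
  · rw [hqA, hP i]
    congr 1
    funext j
    rw [← hPA, Matrix.map_apply]
  · have h1 := congrArg natDegree hid2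
    rw [natDegree_pow, natDegree_C_mul hcb, natDegree_pow] at h1
    have h2 : n * (PA.map (rho L v₁)).det.natDegree = n * (d * (rho L v₁ qA).natDegree) := by
      rw [h1]; ring
    exact Nat.eq_of_mul_eq_mul_left hn h2

end Fermat.Agent.TOR.KL2
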