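import Fermat.Agent.GAL.KL.Defs

/-!
# TOR / KL2 : the key lemma for TWO valuations (nodal reduction).  Definitions.

`L` algebraically closed, `F ⊇ L(t)` finite, `v₁ v₂` two valuations of `F`, both Gauss on `L[t]`.
`NN v₁ v₂ x = max (v₁ x) (v₂ x)` is the sup norm.  Everything is the two-valuation analogue of
`Fermat/Agent/GAL/KL` (helper18's key lemma); `comb`, `Gauss`, `Spans`, `IsBasis`, `IsInt`, `BB`, `II`, `LocPow`, `Arch`
are reused from there.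
-/

set_option autoImplicit false

namespace Fermat.Agent.TOR.KL2

open Polynomial Fermat.Agent.GAL.KL

variable (L : Type*) {F Γ₀ : Type*} [Field L] [Field F] [Algebra L F]
  [LinearOrderedCommGroupWithZero Γ₀]

/-- the sup norm of two valuations. -/
def NN (v₁ v₂ : Valuation F Γ₀) (x : F) : Γ₀ := max (v₁ x) (v₂ x)

/-- both valuations are Gauss on `L[t]` and agree on `L`. -/
structure Setup (v₁ v₂ : Valuation F Γ₀) (t : F) : Prop where
  G1 : Gauss L v₁ t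
  G2 : Gauss L v₂ t
  eqL : ∀ a : L, v₁ (algebraMap L F a) = v₂ (algebraMap L F a)

/-- the family `e` is orthonormal over `L[t]` for the sup norm. -/
def ON2 (v₁ v₂ : Valuation F Γ₀) (t : F) {d : ℕ} (e : Fin d → F) : Prop :=
  ∀ (p : Fin d → L[X]) (γ : Γ₀), NN v₁ v₂ (comb L t p e) ≤ γ ↔ ∀ i, v₁ (aeval t (p i)) ≤ γ

/-- `n`-root closedness of the image `R_v` of `B_t ∩ {NN ≤ 1}` in the residue field of `v`
(`v'` is the other valuation). -/
def RootClosed2 (v v' : Valuation F Γ₀) (t : F) (n : ℕ) : Prop :=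
  ∀ x b : F, IsInt L t b → v b ≤ 1 → v' b ≤ 1 → v (x ^ n - b) < 1 → v x ≤ 1 →
    ∃ b' : F, IsInt L t b' ∧ v' b' ≤ 1 ∧ v (x - b') < 1

/-- `(b mod v₁, 0)` lies in the reduction of the chart ring, i.e. `b mod m` lies in the conductor. -/
def Cond (v₁ v₂ : Valuation F Γ₀) (t : F) (b : F) : Prop :=
  ∃ c : F, IsInt L t c ∧ v₁ (b - c) < 1 ∧ v₂ c < 1

/-- the conductor is a radical ideal of the reduced chart ring ("the crossings are nodes"). -/
def Rad (v₁ v₂ : Valuation F Γ₀) (t : F) : Prop :=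
  ∀ (b : F) (m : ℕ), 0 < m → IsInt L t b → v₁ b ≤ 1 → v₂ b ≤ 1 → Cond L v₁ v₂ t (b ^ m) →
    Cond L v₁ v₂ t b

/-- all hypotheses on one chart. -/
structure Chart (v₁ v₂ : Valuation F Γ₀) (t : F) (n : ℕ) : Prop where
  rc1 : RootClosed2 L v₁ v₂ t n
  rc2 : RootClosed2 L v₂ v₁ t n
  rad : Rad L v₁ v₂ t

/-- `φ` is a "Frobenius of exponent `Q`" on the nodes of the chart `t`
(`Q = 1`: inertia; `Q = q²`: square of a Frobenius lift). -/
structure FrobLike (v₁ v₂ : Valuation F Γ₀) (t : F) (φ : F →+* F) (Q : ℕ) : Prop where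
  int : ∀ x, IsInt L t x → IsInt L t (φ x)
  le1 : ∀ x, v₁ x ≤ 1 → v₁ (φ x) ≤ 1
  lt1 : ∀ x, v₁ x < 1 → v₁ (φ x) < 1
  le2 : ∀ x, v₂ x ≤ 1 → v₂ (φ x) ≤ 1
  lt2 : ∀ x, v₂ x < 1 → v₂ (φ x) < 1
  cond : ∀ b, IsInt L t b → v₁ b ≤ 1 → v₂ b ≤ 1 → Cond L v₁ v₂ t (φ b - b ^ Q)

end Fermat.Agent.TOR.KL2
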