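import Mathlib

/-!
# TOR / KL2 / DEG : `dim_k k[X]^d / (rows of P) = deg det P`

PROOF.  `N := range P.vecMulLinear` has full rank (`det P ≠ 0`).  Smith normal form
(`Submodule.smithNormalFormCoeffs`, `Submodule.quotientEquivPiSpan`, `Submodule.finrank_quotient_eq_sum`):
bases `bM` of `k[X]^d`, `bN` of `N` with `bN i = a i • bM i`; the quotient is `∏ k[X] ⧸ (a i)`, of dimension
`∑ natDegree (a i)`; `det P` is associated to `∏ a i`.
-/

set_option autoImplicit false

namespace Fermat.Agent.TOR.KL2

open Module Polynomial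

theorem Deg_det_vecMulLinear {R : Type*} [CommRing R] {d : ℕ} (P : Matrix (Fin d) (Fin d) R) :
    LinearMap.det P.vecMulLinear = P.det := by
  have h : P.vecMulLinear = Matrix.toLin' P.transpose := by
    ext x i
    simp
  rw [h, LinearMap.det_toLin', Matrix.det_transpose]

/-- **DEG.** -/
theorem finrank_quot_range_vecMul {k : Type*} [Field k] {d : ℕ} (P : Matrix (Fin d) (Fin d) k[X])
    (hP : P.det ≠ 0) :
    Module.Finite k ((Fin d → k[X]) ⧸ LinearMap.range P.vecMulLinear) ∧
      finrank k ((Fin d → k[X]) ⧸ LinearMap.range P.vecMulLinear) = P.det.natDegree := by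
  classical
  set f : (Fin d → k[X]) →ₗ[k[X]] (Fin d → k[X]) := P.vecMulLinear with hf
  set N : Submodule k[X] (Fin d → k[X]) := LinearMap.range f with hN
  have hinj : Function.Injective f := by
    rw [← LinearMap.ker_eq_bot, LinearMap.ker_eq_bot']
    intro x hx
    exact Matrix.eq_zero_of_vecMul_eq_zero hP hx
  let e : (Fin d → k[X]) ≃ₗ[k[X]] N := LinearEquiv.ofInjective f hinj
  have h : Module.finrank k[X] N = Module.finrank k[X] (Fin d → k[X]) := e.symm.finrank_eq
  let b : Basis (Fin d) k[X] (Fin d → k[X]) := Pi.basisFun k[X] (Fin d)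
  let a := Submodule.smithNormalFormCoeffs b h
  let b' := Submodule.smithNormalFormTopBasis b h
  let ab := Submodule.smithNormalFormBotBasis b h
  have ab_eq := Submodule.smithNormalFormBotBasis_def b h
  have ha0 : ∀ i, a i ≠ 0 := Submodule.smithNormalFormCoeffs_ne_zero b h
  have hfin : ∀ i, Module.Finite k (k[X] ⧸ Ideal.span ({a i} : Set k[X])) := fun i =>
    PowerBasis.finite <| AdjoinRoot.powerBasis <| ha0 i
  have hfr : ∀ i, finrank k (k[X] ⧸ Ideal.span ({a i} : Set k[X])) = (a i).natDegree := fun i =>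
    (AdjoinRoot.powerBasis <| ha0 i).finrank
  refine ⟨?_, ?_⟩
  · exact Module.Finite.equiv ((N.quotientEquivPiSpan b h).restrictScalars k).symm
  · let e' : (Fin d → k[X]) ≃ₗ[k[X]] N := b'.equiv ab (Equiv.refl _)
    let f' : (Fin d → k[X]) →ₗ[k[X]] (Fin d → k[X]) := N.subtype.comp (e' : _ →ₗ[k[X]] N)
    have hf' : ∀ i, f' (b' i) = a i • b' i := by
      intro i
      change ((b'.equiv ab (Equiv.refl _) (b' i) : N) : Fin d → k[X]) = _
      rw [b'.equiv_apply, Equiv.refl_apply]
      exact ab_eq i
    have hdet' : LinearMap.det f' = ∏ i, a i := by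
      rw [← LinearMap.det_toMatrix b', ← Matrix.det_diagonal]
      congr 1
      ext i j
      rw [LinearMap.toMatrix_apply, hf', map_smul, Basis.repr_self, Finsupp.smul_single,
        smul_eq_mul, mul_one]
      by_cases hij : i = j
      · rw [hij, Matrix.diagonal_apply_eq, Finsupp.single_eq_same]
      · rw [Matrix.diagonal_apply_ne _ hij, Finsupp.single_eq_of_ne hij]
    have hfe : f = N.subtype.comp (e : _ →ₗ[k[X]] N) := by
      ext x i
      rfl
    have hass : Associated P.det (∏ i, a i) := by
      rw [← Deg_det_vecMulLinear P, ← hdet', ← hf, hfe]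
      exact LinearMap.associated_det_comp_equiv _ _ _
    rw [natDegree_eq_of_degree_eq (degree_eq_degree_of_associated hass),
      natDegree_prod _ _ fun i _ => ha0 i, Submodule.finrank_quotient_eq_sum k b h]
    exact Finset.sum_congr rfl fun i _ => hfr i

end Fermat.Agent.TOR.KL2
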