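import Fermat.Agent.TOR.KL2.NearOne2

/-!
# TOR / KL2 : the class `φ w / w ^ Q` has a section `≡ 1` on the chart

`u ∈ I(w)`, `u' ∈ I(w⁻¹)`, both `≡ 1` for `v₁`;  `g = φ u * u' ^ Q ∈ I(φ w / w ^ Q)` is `≡ 1` for `v₁` and `g - 1` is congruent for `v₂` to an
element `c` of the conductor `0 × c₂` (`u u' ∈ B`, `φ ≡ ( )^Q` on `B` modulo the conductor); `c` is congruent to an element `x` of
`I(φ w / w ^ Q)`; `G = g - x`.
-/

set_option autoImplicit false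

namespace Fermat.Agent.TOR.KL2

open Polynomial Fermat.Agent.GAL.KL

variable {L F Γ₀ : Type*} [Field L] [Field F] [Algebra L F] [LinearOrderedCommGroupWithZero Γ₀]
variable {v₁ v₂ : Valuation F Γ₀} {t : F} {d : ℕ}

theorem locPow_inv {n : ℕ} {w : F} {c : L} (h : LocPow L t n w c) : LocPow L t n w⁻¹ c := by
  obtain ⟨z, q, hz, hq, h1, h2⟩ := h
  refine ⟨z⁻¹, q, inv_ne_zero hz, hq, ?_, ?_⟩
  · rw [inv_pow, ← mul_inv]; exact h2
  · rw [inv_pow, ← mul_inv, inv_inv]; exact h1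

theorem v_inv_sub_one_lt {v : Valuation F Γ₀} {w : F} (h : v (w - 1) < 1) : v (w⁻¹ - 1) < 1 := by
  have hvw := v_eq_one_of_sub_one_lt' h
  have hw0 : w ≠ 0 := fun h0 => by rw [h0, map_zero] at hvw; exact zero_ne_one hvw
  have h1 : w⁻¹ - 1 = - (w⁻¹ * (w - 1)) := by field_simp; ring
  rw [h1, Valuation.map_neg, map_mul, map_inv₀, hvw, inv_one, one_mul]
  exact h

theorem v_pow_sub_one_lt {v : Valuation F Γ₀} {w : F} (h : v (w - 1) < 1) (m : ℕ) :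
    v (w ^ m - 1) < 1 := by
  induction m with
  | zero => simp
  | succ k ih =>
    have h1 : w ^ (k + 1) - 1 = (w ^ k - 1) * w + (w - 1) := by ring
    rw [h1]
    refine Valuation.map_add_lt v ?_ h
    rw [map_mul, v_eq_one_of_sub_one_lt' h, mul_one]
    exact ih

theorem v_mul_sub_one_lt {v : Valuation F Γ₀} {a b : F} (ha : v (a - 1) < 1) (hb : v (b - 1) < 1) :
    v (a * b - 1) < 1 := by
  have h1 : a * b - 1 = (a - 1) * b + (b - 1) := by ring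
  rw [h1]
  refine Valuation.map_add_lt v ?_ hb
  rw [map_mul, v_eq_one_of_sub_one_lt' hb, mul_one]
  exact ha

theorem v_frob_sub_one_lt {v : Valuation F Γ₀} {φ : F →+* F} (hlt : ∀ x, v x < 1 → v (φ x) < 1)
    {w : F} (h : v (w - 1) < 1) (Q : ℕ) : v (φ w / w ^ Q - 1) < 1 := by
  rw [div_eq_mul_inv]
  refine v_mul_sub_one_lt ?_ (v_inv_sub_one_lt (v_pow_sub_one_lt h Q))
  have := hlt _ h
  rwa [map_sub, map_one] at this

theorem NN_frob_sub_one_lt {φ : F →+* F} {Q : ℕ} (hφ : FrobLike L v₁ v₂ t φ Q) {w : F}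
    (h : NN v₁ v₂ (w - 1) < 1) : NN v₁ v₂ (φ w / w ^ Q - 1) < 1 :=
  NN_lt_iff.2 ⟨v_frob_sub_one_lt hφ.lt1 (NN_lt_iff.1 h).1 Q, v_frob_sub_one_lt hφ.lt2 (NN_lt_iff.1 h).2 Q⟩

/-- **the section `≡ 1` of the class `φ w / w ^ Q`.** -/
theorem near_one_frob [IsAlgClosed L] (S : Setup L v₁ v₂ t) (β : Fin d → F)
    (hβ : ON2 L v₁ v₂ t β) (hβs : Spans L t β) (b : Fin d → F) (hb : IsBasis L t b (BB L t))
    {n : ℕ} (hn : 0 < n) {w : F} (hw : NN v₁ v₂ (w - 1) < 1) (hC : Chart L v₁ v₂ t n)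
    (φ : F →+* F) {Q : ℕ} (hQ : 0 < Q) (hφ : FrobLike L v₁ v₂ t φ Q)
    (hU : ∀ c : L, LocPow L t n w c) (hU' : ∀ c : L, LocPow L t n (φ w / w ^ Q) c) :
    ∃ G ∈ II L t n (φ w / w ^ Q), NN v₁ v₂ (G - 1) < 1 := by
  obtain ⟨hw1, hw2⟩ := NN_lt_iff.1 hw
  have hvw1 := v_eq_one_of_sub_one_lt' hw1
  have hw0 : w ≠ 0 := fun h0 => by rw [h0, map_zero] at hvw1; exact zero_ne_one hvw1
  have hwi : NN v₁ v₂ (w⁻¹ - 1) < 1 := NN_lt_iff.2 ⟨v_inv_sub_one_lt hw1, v_inv_sub_one_lt hw2⟩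
  have hw' : NN v₁ v₂ (φ w / w ^ Q - 1) < 1 := NN_frob_sub_one_lt hφ hw
  have hone : NN v₁ v₂ (1 : F) ≤ 1 := NN_le_iff.2 ⟨by rw [map_one], by rw [map_one]⟩
  -- the sections `u`, `u'`
  obtain ⟨u, hu, hule, hu1⟩ := (near2 S β hβ hβs b hb hn hw hC hU).2 1 IsInt.one hone
  obtain ⟨u', hu', hu'le, hu'1⟩ :=
    (near2 S β hβ hβs b hb hn hwi hC (fun c => locPow_inv (hU c))).2 1 IsInt.one hone
  obtain ⟨hul1, hul2⟩ := NN_le_iff.1 hule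
  obtain ⟨hu'l1, hu'l2⟩ := NN_le_iff.1 hu'le
  -- approximations for `v₂`
  obtain ⟨b₂, hb₂, hb₂le, hub₂⟩ := approx1 (v₁ := v₂) (v₂ := v₁) (by rwa [NN_comm]) hC.rc2 hu
    (by rwa [NN_comm])
  obtain ⟨b₂', hb₂', hb₂'le, hub₂'⟩ := approx1 (v₁ := v₂) (v₂ := v₁) (by rwa [NN_comm]) hC.rc2 hu'
    (by rwa [NN_comm])
  obtain ⟨hb₂l2, hb₂l1⟩ := NN_le_iff.1 hb₂le
  obtain ⟨hb₂'l2, hb₂'l1⟩ := NN_le_iff.1 hb₂'le
  -- `u u' ∈ B`
  have huu : IsInt L t (u * u') := by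
    refine IsInt.of_pow hn ?_
    have h1 : (u * u') ^ n = (u ^ n * w) * (u' ^ n * w⁻¹) := by
      field_simp
      ring
    rw [h1]
    exact IsInt.mul hu hu'
  -- the Frobenius congruence for `b₂`
  obtain ⟨c₁, hc₁, hc₁1, hc₁2⟩ := hφ.cond b₂ hb₂ hb₂l1 hb₂l2
  set c₂ : F := φ b₂ - b₂ ^ Q - c₁ with hc₂
  have hc₂int : IsInt L t c₂ := ((hφ.int b₂ hb₂).sub (hb₂.pow Q)).sub hc₁
  have hc₂l2 : v₂ c₂ ≤ 1 := by
    refine (Valuation.map_sub v₂ _ _).trans (max_le ((Valuation.map_sub v₂ _ _).trans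
      (max_le (hφ.le2 _ hb₂l2) ?_)) hc₁2.le)
    rw [map_pow]; exact pow_le_one' hb₂l2 Q
  -- the element of the conductor
  set c : F := ((u * u') ^ Q - 1) + c₂ * b₂' ^ Q with hc
  have hcint : IsInt L t c := ((huu.pow Q).sub IsInt.one).add (hc₂int.mul (hb₂'.pow Q))
  have hc1 : v₁ c < 1 := by
    refine Valuation.map_add_lt v₁ (v_pow_sub_one_lt (v_mul_sub_one_lt hu1 hu'1) Q) ?_
    rw [map_mul, map_pow]
    exact mul_lt_one_of_lt_of_le hc₁1 (pow_le_one' hb₂'l1 Q)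
  have hc2 : v₂ c ≤ 1 := by
    refine (Valuation.map_add v₂ _ _).trans (max_le ((Valuation.map_sub v₂ _ _).trans
      (max_le ?_ (by rw [map_one]))) ?_)
    · rw [map_pow, map_mul]; exact pow_le_one' (mul_le_one' hul2 hu'l2) Q
    · rw [map_mul, map_pow]; exact mul_le_one' hc₂l2 (pow_le_one' hb₂'l2 Q)
  obtain ⟨x, hx, hxc⟩ := (near2 S β hβ hβs b hb hn hw' hC hU').1 c hcint hc1 hc2
  obtain ⟨hxc1, hxc2⟩ := NN_lt_iff.1 hxc
  -- the section `g`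
  have hg : φ u * u' ^ Q ∈ II L t n (φ w / w ^ Q) := by
    change IsInt L t ((φ u * u' ^ Q) ^ n * (φ w / w ^ Q))
    have h1 : (φ u * u' ^ Q) ^ n * (φ w / w ^ Q) = φ (u ^ n * w) * (u' ^ n * w⁻¹) ^ Q := by
      rw [map_mul, map_pow, mul_pow, mul_pow, inv_pow, div_eq_mul_inv, ← pow_mul, ← pow_mul,
        mul_comm Q n]
      ring
    rw [h1]
    exact (hφ.int _ hu).mul (IsInt.pow hu' Q)
  refine ⟨φ u * u' ^ Q - x, II.sub hn hg hx, NN_lt_iff.2 ⟨?_, ?_⟩⟩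
  · have h1 : φ u * u' ^ Q - x - 1 = (φ u * u' ^ Q - 1) - (x - c) - c := by ring
    rw [h1]
    refine lt_of_le_of_lt (Valuation.map_sub v₁ _ _) (max_lt
      (lt_of_le_of_lt (Valuation.map_sub v₁ _ _) (max_lt ?_ hxc1)) hc1)
    refine v_mul_sub_one_lt ?_ (v_pow_sub_one_lt hu'1 Q)
    have := hφ.lt1 _ hu1
    rwa [map_sub, map_one] at this
  · have h1 : φ u * u' ^ Q - x - 1
        = (φ (u - b₂) - (u ^ Q - b₂ ^ Q) + c₁) * u' ^ Q + c₂ * (u' ^ Q - b₂' ^ Q) - (x - c) := by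
      rw [hc, hc₂, map_sub]; ring
    rw [h1]
    refine lt_of_le_of_lt (Valuation.map_sub v₂ _ _) (max_lt (Valuation.map_add_lt v₂ ?_ ?_) hxc2)
    · rw [map_mul, map_pow]
      refine mul_lt_one_of_lt_of_le ?_ (pow_le_one' hu'l2 Q)
      refine Valuation.map_add_lt v₂ (lt_of_le_of_lt (Valuation.map_sub v₂ _ _)
        (max_lt (hφ.lt2 _ hub₂) ?_)) hc₁2
      exact NearOne.congr_pow hub₂ hul2 hb₂l2 Q hQ
    · rw [map_mul]
      exact (mul_le_of_le_one_left' hc₂l2).trans_lt (NearOne.congr_pow hub₂' hu'l2 hb₂'l2 Q hQ)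

end Fermat.Agent.TOR.KL2
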