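import Fermat.Agent.TOR.KL2.Deg

/-!
# TOR / KL2 / IDX : two `k[T]`-lattices with "unimodular" transition matrix have the same index in every common overmodule

`V` a `k`-vector space, `T : End V`; `R`, `J` are free `k[T]`-modules with bases `b`, `e`; `g(T) e_i = ∑ P_ij(T) b_j`, `deg det P = d deg g`.

PROOF.  `gJ := g(T) J ≤ R ⊓ J`.  `p ↦ ∑ p_i(T) b_i` is a `k`-linear bijection `k[X]^d → R` mapping `range P.vecMulLinear` onto `gJ`, so by DEG
`dim R/gJ = deg det P = d deg g`; the same with `e` and the matrix `g • 1`: `dim J/gJ = deg (g^d) = d deg g`.  (`det P ≠ 0`: otherwise a nonzero `p` with `p ᵥ* P = 0`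
gives `g(T) ∑ p_i(T) e_i = 0`, i.e. `∑ (g p_i)(T) e_i = 0`, contradiction with `he`.)
`dim Λ/gJ = dim Λ/R + dim R/gJ = dim Λ/J + dim J/gJ` (all finite).
-/

set_option autoImplicit false

namespace Fermat.Agent.TOR.KL2

open Module Polynomial

/-- the `k`-linear map `p ↦ ∑ i, p_i(T) b_i`. -/
noncomputable def idxPhi {k V : Type*} [Field k] [AddCommGroup V] [Module k V] (T : Module.End k V)
    {d : ℕ} (b : Fin d → V) : (Fin d → k[X]) →ₗ[k] V where
  toFun p := ∑ i, aeval T (p i) (b i)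
  map_add' p q := by
    simp only [Pi.add_apply, map_add, LinearMap.add_apply, Finset.sum_add_distrib]
  map_smul' c p := by
    simp only [Pi.smul_apply, map_smul, LinearMap.smul_apply, RingHom.id_apply, Finset.smul_sum]

theorem idxPhi_apply {k V : Type*} [Field k] [AddCommGroup V] [Module k V] (T : Module.End k V)
    {d : ℕ} (b : Fin d → V) (p : Fin d → k[X]) : idxPhi T b p = ∑ i, aeval T (p i) (b i) := rfl

theorem idx_mem_submoduleOf {k V : Type*} [Field k] [AddCommGroup V] [Module k V]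
    (p q : Submodule k V) (x : q) : x ∈ p.submoduleOf q ↔ (x : V) ∈ p := Iff.rfl

/-- the image of `X` in `Λ ⧸ G` has dimension `deg det P` if `X` is `k[T]`-free on `b` and `G` is the image of the
rows of `P`. -/
theorem idx_aux {k V : Type*} [Field k] [AddCommGroup V] [Module k V] {d : ℕ}
    (Λ X G : Submodule k V) (hXΛ : X ≤ Λ) (Φ : (Fin d → k[X]) →ₗ[k] V)
    (hinj : Function.Injective Φ) (hrange : ∀ x, x ∈ X ↔ ∃ p, x = Φ p)
    (P : Matrix (Fin d) (Fin d) k[X]) (hP : P.det ≠ 0)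
    (hG : ∀ x, x ∈ G ↔ ∃ p : Fin d → k[X], x = Φ (Matrix.vecMul p P)) :
    Module.Finite k ((X.submoduleOf Λ).map (G.submoduleOf Λ).mkQ) ∧
      finrank k ((X.submoduleOf Λ).map (G.submoduleOf Λ).mkQ) = P.det.natDegree := by
  have hΦΛ : ∀ p, Φ p ∈ Λ := fun p => hXΛ ((hrange _).mpr ⟨p, rfl⟩)
  set ψ : (Fin d → k[X]) →ₗ[k] (↥Λ ⧸ G.submoduleOf Λ) :=
    (G.submoduleOf Λ).mkQ ∘ₗ (Φ.codRestrict Λ hΦΛ) with hψ
  have hker : LinearMap.ker ψ = (LinearMap.range P.vecMulLinear).restrictScalars k := by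
    ext p
    rw [LinearMap.mem_ker, hψ, LinearMap.comp_apply, Submodule.mkQ_apply,
      Submodule.Quotient.mk_eq_zero, idx_mem_submoduleOf, Submodule.restrictScalars_mem,
      LinearMap.mem_range]
    simp only [LinearMap.codRestrict_apply]
    rw [hG]
    constructor
    · rintro ⟨p', hp'⟩
      exact ⟨p', (hinj hp').symm⟩
    · rintro ⟨p', hp'⟩
      refine ⟨p', ?_⟩
      rw [← hp']
      rfl
  have hran : LinearMap.range ψ = (X.submoduleOf Λ).map (G.submoduleOf Λ).mkQ := by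
    ext y
    rw [LinearMap.mem_range, Submodule.mem_map]
    constructor
    · rintro ⟨p, rfl⟩
      refine ⟨Φ.codRestrict Λ hΦΛ p, ?_, rfl⟩
      rw [idx_mem_submoduleOf]
      exact (hrange _).mpr ⟨p, rfl⟩
    · rintro ⟨x, hx, rfl⟩
      rw [idx_mem_submoduleOf] at hx
      obtain ⟨p, hp⟩ := (hrange _).mp hx
      refine ⟨p, ?_⟩
      rw [hψ, LinearMap.comp_apply]
      congr 1
      exact Subtype.ext hp.symm
  obtain ⟨hfin, hrk⟩ := finrank_quot_range_vecMul P hP
  let E : ((Fin d → k[X]) ⧸ LinearMap.range P.vecMulLinear) ≃ₗ[k]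
      ((X.submoduleOf Λ).map (G.submoduleOf Λ).mkQ) :=
    (Submodule.Quotient.restrictScalarsEquiv k (LinearMap.range P.vecMulLinear)).symm ≪≫ₗ
      (Submodule.quotEquivOfEq _ _ hker.symm) ≪≫ₗ ψ.quotKerEquivRange ≪≫ₗ
      (LinearEquiv.ofEq _ _ hran)
  exact ⟨Module.Finite.equiv E, by rw [← E.finrank_eq, hrk]⟩

/-- **IDX.** -/
theorem idx {k V : Type*} [Field k] [AddCommGroup V] [Module k V] (T : Module.End k V) {d : ℕ}
    (Λ R J : Submodule k V) (hRΛ : R ≤ Λ) (hJΛ : J ≤ Λ) (b e : Fin d → V)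
    (hb : ∀ p : Fin d → k[X], ∑ i, aeval T (p i) (b i) = 0 → p = 0)
    (hbR : ∀ x, x ∈ R ↔ ∃ p : Fin d → k[X], x = ∑ i, aeval T (p i) (b i))
    (he : ∀ p : Fin d → k[X], ∑ i, aeval T (p i) (e i) = 0 → p = 0)
    (heJ : ∀ x, x ∈ J ↔ ∃ p : Fin d → k[X], x = ∑ i, aeval T (p i) (e i))
    (g : k[X]) (hg : g ≠ 0) (P : Matrix (Fin d) (Fin d) k[X])
    (hP : ∀ i, aeval T g (e i) = ∑ j, aeval T (P i j) (b j))
    (hdeg : P.det.natDegree = d * g.natDegree)
    (hfin : Module.Finite k (↥Λ ⧸ R.submoduleOf Λ)) :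
    Module.Finite k (↥Λ ⧸ J.submoduleOf Λ) ∧
      finrank k (↥Λ ⧸ J.submoduleOf Λ) = finrank k (↥Λ ⧸ R.submoduleOf Λ) := by
  classical
  have hbinj : Function.Injective (idxPhi T b) :=
    (injective_iff_map_eq_zero _).mpr fun p hp => hb p hp
  have heinj : Function.Injective (idxPhi T e) :=
    (injective_iff_map_eq_zero _).mpr fun p hp => he p hp
  -- the key identity
  have hkey : ∀ p : Fin d → k[X], idxPhi T b (Matrix.vecMul p P) = idxPhi T e (fun i => g * p i) := by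
    intro p
    rw [idxPhi_apply, idxPhi_apply]
    have h1 : ∀ i, aeval T (g * p i) (e i) = ∑ j, aeval T (p i * P i j) (b j) := by
      intro i
      rw [mul_comm, map_mul, Module.End.mul_apply, hP i, map_sum]
      refine Finset.sum_congr rfl fun j _ => ?_
      rw [map_mul, Module.End.mul_apply]
    simp_rw [h1]
    rw [Finset.sum_comm]
    refine Finset.sum_congr rfl fun j _ => ?_
    rw [Matrix.vecMul, dotProduct, map_sum, LinearMap.sum_apply]
  have hscal : ∀ p : Fin d → k[X],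
      Matrix.vecMul p (g • (1 : Matrix (Fin d) (Fin d) k[X])) = fun i => g * p i := by
    intro p
    rw [Matrix.vecMul_smul, Matrix.vecMul_one]
    rfl
  have hdetP : P.det ≠ 0 := by
    intro h0
    obtain ⟨p, hp0, hp⟩ := Matrix.exists_vecMul_eq_zero_iff.mpr h0
    have h1 := hkey p
    rw [hp, map_zero] at h1
    have h2 := he _ h1.symm
    apply hp0
    funext i
    have h3 := congrFun h2 i
    exact (mul_eq_zero.mp h3).resolve_left hg
  have hdetg : (g • (1 : Matrix (Fin d) (Fin d) k[X])).det = g ^ d := by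
    rw [Matrix.det_smul, Matrix.det_one, mul_one, Fintype.card_fin]
  have hdetg0 : (g • (1 : Matrix (Fin d) (Fin d) k[X])).det ≠ 0 := by
    rw [hdetg]; exact pow_ne_zero _ hg
  -- the submodule `g(T) J`
  set G : Submodule k V := ((LinearMap.range P.vecMulLinear).restrictScalars k).map (idxPhi T b)
    with hGdef
  have hG1 : ∀ x, x ∈ G ↔ ∃ p : Fin d → k[X], x = idxPhi T b (Matrix.vecMul p P) := by
    intro x
    rw [hGdef, Submodule.mem_map]
    constructor
    · rintro ⟨y, hy, rfl⟩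
      obtain ⟨p, rfl⟩ := hy
      exact ⟨p, rfl⟩
    · rintro ⟨p, rfl⟩
      exact ⟨_, ⟨p, rfl⟩, rfl⟩
  have hG2 : ∀ x, x ∈ G ↔ ∃ p : Fin d → k[X],
      x = idxPhi T e (Matrix.vecMul p (g • (1 : Matrix (Fin d) (Fin d) k[X]))) := by
    intro x
    rw [hG1]
    simp_rw [hscal, hkey]
  have hGR : G ≤ R := fun x hx => by
    obtain ⟨p, rfl⟩ := (hG1 x).mp hx
    exact (hbR _).mpr ⟨_, rfl⟩
  have hGJ : G ≤ J := fun x hx => by
    obtain ⟨p, rfl⟩ := (hG2 x).mp hx
    exact (heJ _).mpr ⟨_, rfl⟩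
  obtain ⟨hfR, hrR⟩ := idx_aux Λ R G hRΛ (idxPhi T b) hbinj hbR P hdetP hG1
  obtain ⟨hfJ, hrJ⟩ := idx_aux Λ J G hJΛ (idxPhi T e) heinj heJ _ hdetg0 hG2
  have hGR' : G.submoduleOf Λ ≤ R.submoduleOf Λ := fun x hx => hGR hx
  have hGJ' : G.submoduleOf Λ ≤ J.submoduleOf Λ := fun x hx => hGJ hx
  let ER := Submodule.quotientQuotientEquivQuotient (G.submoduleOf Λ) (R.submoduleOf Λ) hGR'
  let EJ := Submodule.quotientQuotientEquivQuotient (G.submoduleOf Λ) (J.submoduleOf Λ) hGJ'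
  have : Module.Finite k ((↥Λ ⧸ G.submoduleOf Λ) ⧸ (R.submoduleOf Λ).map (G.submoduleOf Λ).mkQ) :=
    Module.Finite.equiv ER.symm
  have hQ : Module.Finite k (↥Λ ⧸ G.submoduleOf Λ) :=
    Module.Finite.of_submodule_quotient ((R.submoduleOf Λ).map (G.submoduleOf Λ).mkQ)
  have h1 := Submodule.finrank_quotient_add_finrank ((R.submoduleOf Λ).map (G.submoduleOf Λ).mkQ)
  have h2 := Submodule.finrank_quotient_add_finrank ((J.submoduleOf Λ).map (G.submoduleOf Λ).mkQ)
  rw [ER.finrank_eq, hrR, hdeg] at h1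
  rw [EJ.finrank_eq, hrJ, hdetg, natDegree_pow] at h2
  refine ⟨Module.Finite.equiv EJ, ?_⟩
  omega

end Fermat.Agent.TOR.KL2
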