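import Mathlib

/-!
# TOR / KL2 / NODE-A : a finite dimensional reduced algebra over an algebraically closed field is `k^m`

PROOF.  `S` is artinian and reduced: `IsArtinianRing.equivPi : S ≃+* ∀ I : MaximalSpectrum S, S ⧸ I.asIdeal`
(`MaximalSpectrum S` is finite).  Each `S ⧸ I` is a field, finite over `k`, so
`IsAlgClosed.algebraMap_bijective_of_isIntegral` gives `S ⧸ I ≃ₐ[k] k`.  Enumerate `MaximalSpectrum S` by `Fin m`.
-/

set_option autoImplicit false

namespace Fermat.Agent.TOR.KL2

/-- **NODE-A.** -/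
theorem exists_characters {k S : Type*} [Field k] [IsAlgClosed k] [CommRing S] [Algebra k S]
    [Module.Finite k S] [IsReduced S] :
    ∃ (m : ℕ) (χ : Fin m → S →ₐ[k] k), (∀ x : S, (∀ i, χ i x = 0) → x = 0) ∧
      ∀ c : Fin m → k, ∃ x : S, ∀ i, χ i x = c i := by
  classical
  have : IsArtinianRing S := IsArtinianRing.of_finite k S
  have hbij : ∀ I : MaximalSpectrum S, Function.Bijective (algebraMap k (S ⧸ I.asIdeal)) := by
    intro I
    have := I.isMaximal
    have : IsDomain (S ⧸ I.asIdeal) := Ideal.Quotient.isDomain _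
    exact IsAlgClosed.algebraMap_bijective_of_isIntegral
  let E : ∀ I : MaximalSpectrum S, k ≃ₐ[k] (S ⧸ I.asIdeal) := fun I =>
    AlgEquiv.ofBijective (Algebra.ofId k (S ⧸ I.asIdeal)) (hbij I)
  let ψ : MaximalSpectrum S → S →ₐ[k] k := fun I =>
    ((E I).symm : (S ⧸ I.asIdeal) →ₐ[k] k).comp (Ideal.Quotient.mkₐ k I.asIdeal)
  have hψ : ∀ I x, ψ I x = (E I).symm (Ideal.Quotient.mk I.asIdeal x) := fun _ _ => rfl
  let e := Finite.equivFin (MaximalSpectrum S)
  refine ⟨Nat.card (MaximalSpectrum S), fun i => ψ (e.symm i), ?_, ?_⟩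
  · intro x hx
    apply (IsArtinianRing.equivPi S).injective
    rw [map_zero]
    funext I
    have h : ψ (e.symm (e I)) x = 0 := hx (e I)
    rw [Equiv.symm_apply_apply, hψ, EmbeddingLike.map_eq_zero_iff] at h
    exact h
  · intro c
    refine ⟨(IsArtinianRing.equivPi S).symm fun I => E I (c (e I)), fun i => ?_⟩
    have h : Ideal.Quotient.mk (e.symm i).asIdeal
        ((IsArtinianRing.equivPi S).symm fun I => E I (c (e I))) = E (e.symm i) (c (e (e.symm i))) := by
      have := congrFun ((IsArtinianRing.equivPi S).apply_symm_apply fun I => E I (c (e I))) (e.symm i)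
      exact this
    show ψ (e.symm i) _ = c i
    rw [hψ, h, AlgEquiv.symm_apply_apply, Equiv.apply_symm_apply]

end Fermat.Agent.TOR.KL2
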