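import Fermat.Agent.TOR.KL2.NodeDefs
import Fermat.Agent.TOR.KL2.NodeA

/-!
# TOR / KL2 / NODE-B : the nodes of `R ≤ E₁ × E₂`

PROOF.  `c := {x : R | InCond R x}` is an ideal of `R` (if `(a,b), (a,0) ∈ R` and `(r,s) ∈ R` then `(ra, 0) = (r,s)(a,0) ∈ R`);
note `InCond R (a,b) ↔ (a,0) ∈ R ∧ (0,b) ∈ R`.  `S := R ⧸ c` is finite dimensional (`hTR`: it is spanned by the image of `T ⊓ R`...
more precisely the `k`-linear map `T ⊓ R → S` is onto: for `x ∈ R`, `y ∈ T` with `InCond R (x - y)` we get `y = x - (x - y) ∈ R`) and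
reduced (`hred`).  Let `χ : Fin m → S →ₐ[k] k` be as in `exists_characters`.
For `a ∈ pr₁ R` put `χ¹ i a := χ i [r]` for any `r ∈ R` with `r.1 = a` (well defined: if `r.1 = r'.1` then `r - r' = (0, *) ∈ R`, which is in `c`);
the same for `pr₂`.  `ev x i := (χ¹ i x.1, χ² i x.2)`.
* kernel: `χ¹ i a = 0 ∀ i` ⇒ `[r] = 0` ⇒ `r ∈ c` ⇒ `(a, 0) ∈ R`; the same for the second component; `(a,0) + (0,b) = x`.
* surjective: given `(α_i, β_i)` choose `r, r' ∈ R` with `χ i [r] = α_i`, `χ i [r'] = β_i` and take `x = (r.1, r'.2)`.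
* `x ∈ R` ⇒ both components of `ev x i` are `χ i [x]`.  Conversely take `r ∈ R`, `r.1 = x.1`; `x - r = (0, b)`, `χ² i b = 0 ∀ i`, so `(0,b) ∈ R`.
-/

set_option autoImplicit false

namespace Fermat.Agent.TOR.KL2

variable {k E₁ E₂ : Type*} [Field k] [CommRing E₁] [CommRing E₂] [Algebra k E₁] [Algebra k E₂]

/-- the conductor as an ideal of `R`. -/
def condIdeal (R : Subalgebra k (E₁ × E₂)) : Ideal R where
  carrier := {x | InCond R (x : E₁ × E₂)}
  add_mem' := by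
    intro a b ha hb
    refine ⟨(a + b).2, ?_⟩
    have := R.add_mem ha.2 hb.2
    simpa using this
  zero_mem' := ⟨R.zero_mem, R.zero_mem⟩
  smul_mem' := by
    intro r x hx
    refine ⟨(r • x).2, ?_⟩
    have := R.mul_mem r.2 hx.2
    have h3 : (r : E₁ × E₂) * ((x : E₁ × E₂).1, (0 : E₂))
        = (((r • x : R) : E₁ × E₂).1, (0 : E₂)) := by
      ext <;> simp
    rwa [h3] at this

theorem mem_condIdeal {R : Subalgebra k (E₁ × E₂)} {x : R} :
    x ∈ condIdeal R ↔ InCond R (x : E₁ × E₂) := Iff.rfl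

/-- elements of `R` with the same first component are congruent modulo the conductor. -/
theorem nodeB_mk_eq_of_fst {R : Subalgebra k (E₁ × E₂)} {r r' : R}
    (h : (r : E₁ × E₂).1 = (r' : E₁ × E₂).1) :
    Ideal.Quotient.mk (condIdeal R) r = Ideal.Quotient.mk (condIdeal R) r' := by
  rw [Ideal.Quotient.eq, mem_condIdeal]
  refine ⟨(r - r').2, ?_⟩
  have : (((r - r' : R) : E₁ × E₂).1, (0 : E₂)) = 0 := by
    ext <;> simp [h]
  rw [this]
  exact R.zero_mem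

/-- elements of `R` with the same second component are congruent modulo the conductor. -/
theorem nodeB_mk_eq_of_snd {R : Subalgebra k (E₁ × E₂)} {r r' : R}
    (h : (r : E₁ × E₂).2 = (r' : E₁ × E₂).2) :
    Ideal.Quotient.mk (condIdeal R) r = Ideal.Quotient.mk (condIdeal R) r' := by
  rw [Ideal.Quotient.eq, mem_condIdeal]
  refine ⟨(r - r').2, ?_⟩
  have : (((r - r' : R) : E₁ × E₂).1, (0 : E₂)) = ((r - r' : R) : E₁ × E₂) := by
    ext <;> simp [h]
  rw [this]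
  exact (r - r').2

/-- a lift to `R` of the first component. -/
noncomputable def nodeBLift₁ (R : Subalgebra k (E₁ × E₂)) (x : ↥(nuA R)) : R :=
  ⟨(mem_nuA.1 x.2).1.choose, (mem_nuA.1 x.2).1.choose_spec.1⟩

theorem nodeBLift₁_fst (R : Subalgebra k (E₁ × E₂)) (x : ↥(nuA R)) :
    (nodeBLift₁ R x : E₁ × E₂).1 = (x : E₁ × E₂).1 := (mem_nuA.1 x.2).1.choose_spec.2

/-- a lift to `R` of the second component. -/
noncomputable def nodeBLift₂ (R : Subalgebra k (E₁ × E₂)) (x : ↥(nuA R)) : R :=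
  ⟨(mem_nuA.1 x.2).2.choose, (mem_nuA.1 x.2).2.choose_spec.1⟩

theorem nodeBLift₂_snd (R : Subalgebra k (E₁ × E₂)) (x : ↥(nuA R)) :
    (nodeBLift₂ R x : E₁ × E₂).2 = (x : E₁ × E₂).2 := (mem_nuA.1 x.2).2.choose_spec.2

/-- `pr₁ R × pr₂ R → R / c` through the first component. -/
noncomputable def nodeBQ₁ (R : Subalgebra k (E₁ × E₂)) : ↥(nuA R) →ₐ[k] (R ⧸ condIdeal R) where
  toFun x := Ideal.Quotient.mk _ (nodeBLift₁ R x)
  map_one' := by
    rw [← map_one (Ideal.Quotient.mk (condIdeal R))]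
    exact nodeB_mk_eq_of_fst (by rw [nodeBLift₁_fst]; rfl)
  map_mul' x y := by
    rw [← map_mul (Ideal.Quotient.mk (condIdeal R))]
    refine nodeB_mk_eq_of_fst ?_
    rw [nodeBLift₁_fst]
    show _ = (nodeBLift₁ R x : E₁ × E₂).1 * (nodeBLift₁ R y : E₁ × E₂).1
    rw [nodeBLift₁_fst, nodeBLift₁_fst]
    rfl
  map_zero' := by
    rw [← map_zero (Ideal.Quotient.mk (condIdeal R))]
    exact nodeB_mk_eq_of_fst (by rw [nodeBLift₁_fst]; rfl)
  map_add' x y := by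
    rw [← map_add (Ideal.Quotient.mk (condIdeal R))]
    refine nodeB_mk_eq_of_fst ?_
    rw [nodeBLift₁_fst]
    show _ = (nodeBLift₁ R x : E₁ × E₂).1 + (nodeBLift₁ R y : E₁ × E₂).1
    rw [nodeBLift₁_fst, nodeBLift₁_fst]
    rfl
  commutes' a := by
    show _ = Ideal.Quotient.mk (condIdeal R) (algebraMap k R a)
    exact nodeB_mk_eq_of_fst (by rw [nodeBLift₁_fst]; rfl)

/-- `pr₁ R × pr₂ R → R / c` through the second component. -/
noncomputable def nodeBQ₂ (R : Subalgebra k (E₁ × E₂)) : ↥(nuA R) →ₐ[k] (R ⧸ condIdeal R) where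
  toFun x := Ideal.Quotient.mk _ (nodeBLift₂ R x)
  map_one' := by
    rw [← map_one (Ideal.Quotient.mk (condIdeal R))]
    exact nodeB_mk_eq_of_snd (by rw [nodeBLift₂_snd]; rfl)
  map_mul' x y := by
    rw [← map_mul (Ideal.Quotient.mk (condIdeal R))]
    refine nodeB_mk_eq_of_snd ?_
    rw [nodeBLift₂_snd]
    show _ = (nodeBLift₂ R x : E₁ × E₂).2 * (nodeBLift₂ R y : E₁ × E₂).2
    rw [nodeBLift₂_snd, nodeBLift₂_snd]
    rfl
  map_zero' := by
    rw [← map_zero (Ideal.Quotient.mk (condIdeal R))]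
    exact nodeB_mk_eq_of_snd (by rw [nodeBLift₂_snd]; rfl)
  map_add' x y := by
    rw [← map_add (Ideal.Quotient.mk (condIdeal R))]
    refine nodeB_mk_eq_of_snd ?_
    rw [nodeBLift₂_snd]
    show _ = (nodeBLift₂ R x : E₁ × E₂).2 + (nodeBLift₂ R y : E₁ × E₂).2
    rw [nodeBLift₂_snd, nodeBLift₂_snd]
    rfl
  commutes' a := by
    show _ = Ideal.Quotient.mk (condIdeal R) (algebraMap k R a)
    exact nodeB_mk_eq_of_snd (by rw [nodeBLift₂_snd]; rfl)

theorem nodeBQ₁_eq {R : Subalgebra k (E₁ × E₂)} (x : ↥(nuA R)) (r : R)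
    (h : (r : E₁ × E₂).1 = (x : E₁ × E₂).1) : nodeBQ₁ R x = Ideal.Quotient.mk _ r :=
  nodeB_mk_eq_of_fst (by rw [nodeBLift₁_fst, h])

theorem nodeBQ₂_eq {R : Subalgebra k (E₁ × E₂)} (x : ↥(nuA R)) (r : R)
    (h : (r : E₁ × E₂).2 = (x : E₁ × E₂).2) : nodeBQ₂ R x = Ideal.Quotient.mk _ r :=
  nodeB_mk_eq_of_snd (by rw [nodeBLift₂_snd, h])

theorem nodeB_finite (R : Subalgebra k (E₁ × E₂))
    (T : Submodule k (E₁ × E₂)) (hT : Module.Finite k T)
    (hTR : ∀ x ∈ R, ∃ y ∈ T, InCond R (x - y)) : Module.Finite k (R ⧸ condIdeal R) := by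
  have hfin : Module.Finite k ↥(T ⊓ Subalgebra.toSubmodule R) :=
    Submodule.finiteDimensional_of_le inf_le_left
  let φ : ↥(T ⊓ Subalgebra.toSubmodule R) →ₗ[k] (R ⧸ condIdeal R) :=
    { toFun := fun x => Ideal.Quotient.mkₐ k (condIdeal R) ⟨x.1, x.2.2⟩
      map_add' := fun x y => by rw [← map_add]; rfl
      map_smul' := fun a x => by rw [RingHom.id_apply, ← map_smul]; rfl }
  refine Module.Finite.of_surjective φ fun s => ?_
  obtain ⟨r, rfl⟩ := Ideal.Quotient.mk_surjective s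
  obtain ⟨y, hyT, hy⟩ := hTR r r.2
  have hyR : y ∈ R := by
    have := R.sub_mem r.2 hy.1
    simpa using this
  refine ⟨⟨y, hyT, hyR⟩, ?_⟩
  show Ideal.Quotient.mk (condIdeal R) ⟨y, hyR⟩ = Ideal.Quotient.mk (condIdeal R) r
  rw [eq_comm, Ideal.Quotient.eq, mem_condIdeal]
  exact hy

theorem nodeB_isReduced (R : Subalgebra k (E₁ × E₂))
    (hred : ∀ x ∈ R, ∀ j : ℕ, InCond R (x ^ j) → InCond R x) : IsReduced (R ⧸ condIdeal R) := by
  refine ⟨fun s hs => ?_⟩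
  obtain ⟨r, rfl⟩ := Ideal.Quotient.mk_surjective s
  obtain ⟨j, hj⟩ := hs
  rw [← map_pow, Ideal.Quotient.eq_zero_iff_mem, mem_condIdeal] at hj
  rw [Ideal.Quotient.eq_zero_iff_mem, mem_condIdeal]
  exact hred r r.2 j hj

/-- **NODE-B.**  `T` witnesses that `R / cond R` is finite dimensional. -/
theorem exists_nodes [IsAlgClosed k] (R : Subalgebra k (E₁ × E₂))
    (hred : ∀ x ∈ R, ∀ j : ℕ, InCond R (x ^ j) → InCond R x)
    (T : Submodule k (E₁ × E₂)) (hT : Module.Finite k T) (hTR : ∀ x ∈ R, ∃ y ∈ T, InCond R (x - y)) :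
    ∃ (m : ℕ) (ev : ↥(nuA R) →ₐ[k] (Fin m → k × k)), Function.Surjective ev ∧
      (∀ x : ↥(nuA R), ev x = 0 ↔ InCond R (x : E₁ × E₂)) ∧
      (∀ x : ↥(nuA R), (x : E₁ × E₂) ∈ R ↔ ∀ i, (ev x i).1 = (ev x i).2) := by
  have hfin := nodeB_finite R T hT hTR
  have hredS := nodeB_isReduced R hred
  obtain ⟨m, χ, hχ0, hχs⟩ := exists_characters (k := k) (S := R ⧸ condIdeal R)
  let ev : ↥(nuA R) →ₐ[k] (Fin m → k × k) :=
    AlgHom.pi
      fun i => ((χ i).comp (nodeBQ₁ R)).prod ((χ i).comp (nodeBQ₂ R))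
  have hev : ∀ x i, ev x i = (χ i (nodeBQ₁ R x), χ i (nodeBQ₂ R x)) := fun _ _ => rfl
  refine ⟨m, ev, ?_, ?_, ?_⟩
  · intro y
    obtain ⟨s₁, hs₁⟩ := hχs fun i => (y i).1
    obtain ⟨s₂, hs₂⟩ := hχs fun i => (y i).2
    obtain ⟨r₁, rfl⟩ := Ideal.Quotient.mk_surjective s₁
    obtain ⟨r₂, rfl⟩ := Ideal.Quotient.mk_surjective s₂
    let x : ↥(nuA R) := ⟨((r₁ : E₁ × E₂).1, (r₂ : E₁ × E₂).2),
      mem_nuA.2 ⟨⟨r₁, r₁.2, rfl⟩, ⟨r₂, r₂.2, rfl⟩⟩⟩
    refine ⟨x, funext fun i => ?_⟩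
    rw [hev, nodeBQ₁_eq x r₁ rfl, nodeBQ₂_eq x r₂ rfl, hs₁, hs₂]
  · intro x
    constructor
    · intro h
      have h1 : nodeBQ₁ R x = 0 := hχ0 _ fun i => by
        have := congrFun h i
        rw [hev] at this
        exact congrArg Prod.fst this
      have h2 : nodeBQ₂ R x = 0 := hχ0 _ fun i => by
        have := congrFun h i
        rw [hev] at this
        exact congrArg Prod.snd this
      have c1 : InCond R (nodeBLift₁ R x : E₁ × E₂) :=
        mem_condIdeal.1 (Ideal.Quotient.eq_zero_iff_mem.1 h1)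
      have c2 : InCond R (nodeBLift₂ R x : E₁ × E₂) :=
        mem_condIdeal.1 (Ideal.Quotient.eq_zero_iff_mem.1 h2)
      have e1 : ((x : E₁ × E₂).1, (0 : E₂)) ∈ R := by
        have := c1.2
        rwa [nodeBLift₁_fst] at this
      have e2 : ((0 : E₁), (x : E₁ × E₂).2) ∈ R := by
        have := R.sub_mem c2.1 c2.2
        have h3 : (nodeBLift₂ R x : E₁ × E₂) - ((nodeBLift₂ R x : E₁ × E₂).1, (0 : E₂))
            = ((0 : E₁), (x : E₁ × E₂).2) := by
          ext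
          · simp
          · simp [nodeBLift₂_snd]
        rwa [h3] at this
      refine ⟨?_, e1⟩
      have := R.add_mem e1 e2
      have h3 : ((x : E₁ × E₂).1, (0 : E₂)) + ((0 : E₁), (x : E₁ × E₂).2) = (x : E₁ × E₂) := by
        ext <;> simp
      rwa [h3] at this
    · intro h
      have hz : Ideal.Quotient.mk (condIdeal R) ⟨x, h.1⟩ = 0 :=
        Ideal.Quotient.eq_zero_iff_mem.2 (mem_condIdeal.2 h)
      funext i
      rw [hev, nodeBQ₁_eq x ⟨x, h.1⟩ rfl, nodeBQ₂_eq x ⟨x, h.1⟩ rfl, hz, map_zero]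
      rfl
  · intro x
    constructor
    · intro h i
      rw [hev, nodeBQ₁_eq x ⟨x, h⟩ rfl, nodeBQ₂_eq x ⟨x, h⟩ rfl]
    · intro h
      have h1 : nodeBQ₁ R x - nodeBQ₂ R x = 0 := hχ0 _ fun i => by
        have := h i
        rw [hev] at this
        rw [map_sub, sub_eq_zero]
        exact this
      have h2 : Ideal.Quotient.mk (condIdeal R) (nodeBLift₁ R x - nodeBLift₂ R x) = 0 := by
        rw [map_sub]; exact h1
      have c1 : InCond R ((nodeBLift₁ R x - nodeBLift₂ R x : R) : E₁ × E₂) :=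
        mem_condIdeal.1 (Ideal.Quotient.eq_zero_iff_mem.1 h2)
      have := R.add_mem (nodeBLift₂ R x).2 c1.2
      have h3 : (nodeBLift₂ R x : E₁ × E₂)
          + (((nodeBLift₁ R x - nodeBLift₂ R x : R) : E₁ × E₂).1, (0 : E₂)) = (x : E₁ × E₂) := by
        ext
        · simp [nodeBLift₁_fst]
        · simp [nodeBLift₂_snd]
      rwa [h3] at this

end Fermat.Agent.TOR.KL2
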