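import Fermat.Agent.TOR.KL2.NodeDefs

/-!
# TOR / KL2 / NODE-C : the count

`N` a commutative `k`-algebra, `ev : N → (k × k)^m` a surjective algebra map, `Rd = diagSub ev` the preimage of the diagonal.

PROOF of `node_count`.  `U := Fin m → k × k` has dimension `2m`.  For each `i` the image `ℓ_i ⊂ k × k` of `J` under `x ↦ ev x i` is a subspace
in which `∏ a_j = ∏ b_j` for all `n`-tuples (`hpow`); so `(1,0) ∉ ℓ_i` and `dim ℓ_i ≤ 1`.  `ev J ⊂ ∏ ℓ_i`, so `dim ev J ≤ m`.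
`N ⧸ J ↠ U ⧸ ev J` has dimension `≥ 2m - m = m`, with equality iff `ker ev ≤ J` and `ev J = ∏ ℓ_i`, all `ℓ_i` lines.  By `hidx` equality holds.
A generator `(α_i, β_i)` of `ℓ_i` has `α_i^n = β_i^n`, so `α_i ≠ 0 ≠ β_i`.  The same for `J'`: `(α'_i, β'_i)`.
Choose `x ∈ J`, `y ∈ J'` with `ev x i = (α_i, β_i)`, `ev y i = (α'_i, β'_i)` for all `i`; `x y ∈ Rd` (`hmul`), `ev (x y) i = (u_i, u_i)`, `u_i ≠ 0`.
Choose `r'` with `ev r' i = (u_i⁻¹, u_i⁻¹)` (`hsurj`); `r' ∈ Rd`; `γ := 1 - x y r' ∈ ker ev ≤ J ⊓ J'`, `1 + γ ∈ Rd`.  Then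
`1 = x * (r' (1 + γ) y) + γ * γ`   (because `(1 - γ)(1 + γ) + γ² = 1`).
-/

set_option autoImplicit false

namespace Fermat.Agent.TOR.KL2

open Module

variable {k : Type*} [Field k] {N : Type*} [CommRing N] [Algebra k N] {m : ℕ}
  (ev : N →ₐ[k] (Fin m → k × k))

/-- the difference of the two branches -/
def nodeDiff : N →ₗ[k] (Fin m → k) where
  toFun x i := (ev x i).1 - (ev x i).2
  map_add' x y := by
    ext i
    simp
    ring
  map_smul' c x := by
    ext i
    simp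
    ring

theorem nodeDiff_apply (x : N) (i : Fin m) : nodeDiff ev x i = (ev x i).1 - (ev x i).2 := rfl

theorem ker_nodeDiff : LinearMap.ker (nodeDiff ev) = diagSub ev := by
  ext x
  rw [LinearMap.mem_ker, mem_diagSub, funext_iff]
  simp only [nodeDiff_apply, Pi.zero_apply, sub_eq_zero]

theorem nodeDiff_surjective (hsurj : Function.Surjective ev) :
    Function.Surjective (nodeDiff ev) := by
  intro c
  obtain ⟨x, hx⟩ := hsurj (fun i => (c i, 0))
  refine ⟨x, ?_⟩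
  ext i
  rw [nodeDiff_apply, hx]
  simp

/-- **NODE-C0.**  (`x ↦ (i ↦ (ev x i).1 - (ev x i).2)` is onto `Fin m → k` with kernel `diagSub ev`.) -/
theorem finrank_quot_diagSub (hsurj : Function.Surjective ev) :
    Module.Finite k (N ⧸ diagSub ev) ∧ finrank k (N ⧸ diagSub ev) = m := by
  rw [← ker_nodeDiff]
  let e := (nodeDiff ev).quotKerEquivOfSurjective (nodeDiff_surjective ev hsurj)
  exact ⟨Module.Finite.equiv e.symm, by rw [e.finrank_eq]; simp⟩

theorem pow_fst_eq_pow_snd {n : ℕ} (J : Submodule k N)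
    (hpow : ∀ f : Fin n → N, (∀ i, f i ∈ J) → ∏ i, f i ∈ diagSub ev) {x : N} (hx : x ∈ J)
    (i : Fin m) : (ev x i).1 ^ n = (ev x i).2 ^ n := by
  have h := hpow (fun _ => x) (fun _ => hx) i
  simpa using h

/-- one half of the count -/
theorem node_count_aux (hsurj : Function.Surjective ev) {n : ℕ} (hn : 0 < n)
    (J : Submodule k N)
    (hpow : ∀ f : Fin n → N, (∀ i, f i ∈ J) → ∏ i, f i ∈ diagSub ev)
    (hfin : Module.Finite k (N ⧸ J)) (hidx : finrank k (N ⧸ J) = m) :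
    (∀ x, ev x = 0 → x ∈ J) ∧ ∃ x ∈ J, ∀ i, (ev x i).1 ≠ 0 ∧ (ev x i).2 ≠ 0 := by
  classical
  let U := Fin m → k × k
  let W : Submodule k U := J.map ev.toLinearMap
  have hU : finrank k U = 2 * m := by
    change finrank k (Fin m → k × k) = 2 * m
    rw [Module.finrank_pi_fintype]
    simp [mul_comm]
  -- the functionals
  have hl : ∀ i : Fin m, ∃ f : (k × k) →ₗ[k] k, f ≠ 0 ∧
      ∀ x ∈ J, f (ev x i) = 0 := by
    intro i
    let ℓ : Submodule k (k × k) := J.map ((LinearMap.proj i).comp ev.toLinearMap)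
    have hℓ : ℓ < ⊤ := by
      rw [lt_top_iff_ne_top]
      intro h
      have h1 : ((1 : k), (0 : k)) ∈ ℓ := by rw [h]; trivial
      obtain ⟨x, hx, hx1⟩ := h1
      have hx2 : ev x i = (1, 0) := hx1
      have h2 := pow_fst_eq_pow_snd ev J hpow hx i
      rw [hx2] at h2
      simp [hn.ne'] at h2
    obtain ⟨f, hf0, hf⟩ := Submodule.exists_le_ker_of_lt_top ℓ hℓ
    exact ⟨f, hf0, fun x hx => hf ⟨x, hx, rfl⟩⟩
  choose l hl0 hlJ using hl
  let Φ : U →ₗ[k] (Fin m → k) := LinearMap.pi fun i => (l i).comp (LinearMap.proj i)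
  have hΦ : ∀ u i, Φ u i = l i (u i) := fun _ _ => rfl
  have hΦsurj : Function.Surjective Φ := by
    intro c
    have h1 : ∀ i, ∃ v : k × k, l i v = c i := by
      intro i
      have : Function.Surjective (l i) := LinearMap.surjective (hl0 i)
      exact this (c i)
    choose v hv using h1
    exact ⟨v, funext fun i => hv i⟩
  have hker : finrank k (LinearMap.ker Φ) = m := by
    have h1 := LinearMap.finrank_range_add_finrank_ker Φ
    rw [LinearMap.range_eq_top.mpr hΦsurj, finrank_top, hU] at h1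
    simp at h1
    omega
  have hWle : W ≤ LinearMap.ker Φ := by
    rintro _ ⟨x, hx, rfl⟩
    rw [LinearMap.mem_ker]
    ext i
    exact hlJ i x hx
  -- the surjection `N ⧸ J → U ⧸ W`
  let π : (N ⧸ J) →ₗ[k] (U ⧸ W) := J.mapQ W ev.toLinearMap (Submodule.le_comap_map _ _)
  have hπsurj : Function.Surjective π := by
    intro y
    obtain ⟨u, rfl⟩ := Submodule.Quotient.mk_surjective _ y
    obtain ⟨x, rfl⟩ := hsurj u
    exact ⟨Submodule.Quotient.mk x, rfl⟩
  have hq1 : finrank k (U ⧸ W) ≤ m := by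
    exact (LinearMap.finrank_le_finrank_of_surjective hπsurj).trans hidx.le
  have hq2 := Submodule.finrank_quotient_add_finrank W
  rw [hU] at hq2
  have hWeq : W = LinearMap.ker Φ :=
    Submodule.eq_of_le_of_finrank_le hWle (by rw [hker]; omega)
  have hq3 : finrank k (U ⧸ W) = m := by
    rw [hWeq, hker] at hq2
    rw [hWeq]
    omega
  have hπinj : Function.Injective π :=
    (LinearMap.injective_iff_surjective_of_finrank_eq_finrank (hidx.trans hq3.symm)).mpr hπsurj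
  refine ⟨fun x hx => ?_, ?_⟩
  · have h1 : π (Submodule.Quotient.mk x) = 0 := by
      change Submodule.Quotient.mk (ev x) = (0 : U ⧸ W)
      rw [hx]
      rfl
    have h2 := hπinj (h1.trans (map_zero π).symm)
    exact (Submodule.Quotient.mk_eq_zero J).mp h2
  · have h1 : ∀ i, ∃ v : k × k, v ≠ 0 ∧ l i v = 0 := by
      intro i
      have h2 : LinearMap.ker (l i) ≠ ⊥ := LinearMap.ker_ne_bot_of_finrank_lt (by simp)
      obtain ⟨v, hv, hv0⟩ := Submodule.exists_mem_ne_zero_of_ne_bot h2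
      exact ⟨v, hv0, hv⟩
    choose v hv0 hv using h1
    have hvW : (v : U) ∈ W := by
      rw [hWeq, LinearMap.mem_ker]
      ext i
      exact hv i
    obtain ⟨x, hx, hxv⟩ := hvW
    have hxv' : ev x = v := hxv
    refine ⟨x, hx, fun i => ?_⟩
    have h3 := pow_fst_eq_pow_snd ev J hpow hx i
    have h4 : ev x i ≠ 0 := by rw [hxv']; exact hv0 i
    constructor
    · intro h5
      rw [h5, zero_pow hn.ne'] at h3
      exact h4 (Prod.ext h5 (pow_eq_zero_iff hn.ne' |>.mp h3.symm))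
    · intro h5
      rw [h5, zero_pow hn.ne'] at h3
      exact h4 (Prod.ext (pow_eq_zero_iff hn.ne' |>.mp h3) h5)

/-- **NODE-C.**  The count. -/
theorem node_count (hsurj : Function.Surjective ev) {n : ℕ} (hn : 0 < n)
    (J J' : Submodule k N)
    (hRJ : ∀ r ∈ diagSub ev, ∀ x ∈ J, r * x ∈ J) (hRJ' : ∀ r ∈ diagSub ev, ∀ x ∈ J', r * x ∈ J')
    (hpow : ∀ f : Fin n → N, (∀ i, f i ∈ J) → ∏ i, f i ∈ diagSub ev)
    (hpow' : ∀ f : Fin n → N, (∀ i, f i ∈ J') → ∏ i, f i ∈ diagSub ev)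
    (hmul : ∀ x ∈ J, ∀ y ∈ J', x * y ∈ diagSub ev)
    (hfin : Module.Finite k (N ⧸ J)) (hidx : finrank k (N ⧸ J) = m)
    (hfin' : Module.Finite k (N ⧸ J')) (hidx' : finrank k (N ⧸ J') = m) :
    ∃ x₁ ∈ J, ∃ x₂ ∈ J, ∃ y₁ ∈ J', ∃ y₂ ∈ J', x₁ * y₁ + x₂ * y₂ = 1 := by
  obtain ⟨hkJ, x, hx, hx0⟩ := node_count_aux ev hsurj hn J hpow hfin hidx
  obtain ⟨hkJ', y, hy, hy0⟩ := node_count_aux ev hsurj hn J' hpow' hfin' hidx'
  have hxy := hmul x hx y hy
  obtain ⟨r, hr⟩ := hsurj (fun i => (((ev x i).1 * (ev y i).1)⁻¹, ((ev x i).1 * (ev y i).1)⁻¹))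
  have hγ : ev (1 - x * y * r) = 0 := by
    ext i
    · rw [map_sub, map_mul, map_mul, map_one, hr]
      change 1 - (ev x i).1 * (ev y i).1 * ((ev x i).1 * (ev y i).1)⁻¹ = 0
      rw [mul_inv_cancel₀ (mul_ne_zero (hx0 i).1 (hy0 i).1), sub_self]
    · have h1 := hxy i
      rw [map_mul] at h1
      have h2 : (ev x i).1 * (ev y i).1 = (ev x i).2 * (ev y i).2 := h1
      rw [map_sub, map_mul, map_mul, map_one, hr]
      change 1 - (ev x i).2 * (ev y i).2 * ((ev x i).1 * (ev y i).1)⁻¹ = 0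
      rw [h2, mul_inv_cancel₀ (mul_ne_zero (hx0 i).2 (hy0 i).2), sub_self]
  have hrd : r * (1 + (1 - x * y * r)) ∈ diagSub ev := by
    intro i
    rw [map_mul, map_add, hγ, map_one, hr]
    simp
  refine ⟨x, hx, 1 - x * y * r, hkJ _ hγ, r * (1 + (1 - x * y * r)) * y, hRJ' _ hrd y hy,
    1 - x * y * r, hkJ' _ hγ, ?_⟩
  ring

end Fermat.Agent.TOR.KL2
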