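import Mathlib

/-!
# TOR / KL2 : the nodal count, definitions (pure commutative algebra, Mathlib only)

`k` a field, `R ≤ E₁ × E₂` a subalgebra ("the reduced chart of a curve with two branches"),
`nuA R = pr₁ R × pr₂ R` ("its normalisation"), `InCond R` the conductor.
-/

set_option autoImplicit false

namespace Fermat.Agent.TOR.KL2

variable {k E₁ E₂ : Type*} [Field k] [CommRing E₁] [CommRing E₂] [Algebra k E₁] [Algebra k E₂]

/-- `pr₁ R × pr₂ R`. -/
def nuA (R : Subalgebra k (E₁ × E₂)) : Subalgebra k (E₁ × E₂) :=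
  (R.map (AlgHom.fst k E₁ E₂)).prod (R.map (AlgHom.snd k E₁ E₂))

theorem le_nuA (R : Subalgebra k (E₁ × E₂)) : R ≤ nuA R := fun x hx =>
  Subalgebra.mem_prod.2 ⟨⟨x, hx, rfl⟩, ⟨x, hx, rfl⟩⟩

theorem mem_nuA {R : Subalgebra k (E₁ × E₂)} {x : E₁ × E₂} :
    x ∈ nuA R ↔ (∃ r ∈ R, r.1 = x.1) ∧ ∃ r ∈ R, r.2 = x.2 :=
  Subalgebra.mem_prod

/-- the conductor `{x ∈ R | (x.1, 0) ∈ R}`. -/
def InCond (R : Subalgebra k (E₁ × E₂)) (x : E₁ × E₂) : Prop := x ∈ R ∧ (x.1, (0 : E₂)) ∈ R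

variable {N : Type*} [CommRing N] [Algebra k N] {m : ℕ} (ev : N →ₐ[k] (Fin m → k × k))

/-- the preimage of the diagonal. -/
def diagSub : Submodule k N where
  carrier := {x | ∀ i, (ev x i).1 = (ev x i).2}
  add_mem' := by
    intro a b ha hb i
    have h1 := ha i
    have h2 := hb i
    simp [h1, h2]
  zero_mem' := by intro i; simp
  smul_mem' := by
    intro c a ha i
    have h1 := ha i
    simp [h1]

theorem mem_diagSub {x : N} : x ∈ diagSub ev ↔ ∀ i, (ev x i).1 = (ev x i).2 := Iff.rfl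

end Fermat.Agent.TOR.KL2
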