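import Fermat.Agent.TOR.KL2.Basic

/-!
# TOR / KL2 : reduction of polynomials   `L[X] ⊇ A[X] → k[X]`

`A = {a : L | v a ≤ 1}` (a valuation subring of `L`), `k` its residue field; `iot : A[X] → L[X]`, `rho : A[X] → k[X]`.
If `v` is Gauss on `L[t]`: `p ∈ iot A[X] ↔ v (p(t)) ≤ 1`, `rho p' = 0 ↔ v ((iot p')(t)) < 1`.
-/

set_option autoImplicit false

namespace Fermat.Agent.TOR.KL2

open Polynomial Fermat.Agent.GAL.KL

variable (L : Type*) {F Γ₀ : Type*} [Field L] [Field F] [Algebra L F]
  [LinearOrderedCommGroupWithZero Γ₀] (v : Valuation F Γ₀)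

/-- the valuation ring of `L`. -/
abbrev AL : ValuationSubring L := (v.comap (algebraMap L F)).valuationSubring

/-- its residue field. -/
abbrev kL : Type _ := IsLocalRing.ResidueField (AL L v)

/-- `A[X] → L[X]`. -/
noncomputable def iot : (AL L v)[X] →+* L[X] := mapRingHom (AL L v).subtype

/-- `A[X] → k[X]`. -/
noncomputable def rho : (AL L v)[X] →+* (kL L v)[X] := mapRingHom (IsLocalRing.residue (AL L v))

theorem iot_injective : Function.Injective (iot L v) :=
  map_injective _ Subtype.val_injective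

theorem rho_surjective : Function.Surjective (rho L v) :=
  map_surjective _ IsLocalRing.residue_surjective

theorem coeff_iot (p : (AL L v)[X]) (i : ℕ) : (iot L v p).coeff i = ((p.coeff i : AL L v) : L) := by
  simp [iot]

theorem coeff_rho (p : (AL L v)[X]) (i : ℕ) :
    (rho L v p).coeff i = IsLocalRing.residue (AL L v) (p.coeff i) := by
  simp [rho]

theorem residue_eq_zero_iff (a : AL L v) :
    IsLocalRing.residue (AL L v) a = 0 ↔ v (algebraMap L F (a : L)) < 1 := by
  rw [IsLocalRing.residue_eq_zero_iff]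
  exact Valuation.mem_maximalIdeal_iff (v := v.comap (algebraMap L F))

theorem iot_C (a : AL L v) : iot L v (C a) = C (a : L) := by simp [iot]

theorem rho_C (a : AL L v) : rho L v (C a) = C (IsLocalRing.residue (AL L v) a) := by simp [rho]

variable {L v} {t : F}

theorem exists_iot_eq (hG : Gauss L v t) {p : L[X]} (hp : v (aeval t p) ≤ 1) :
    ∃ p' : (AL L v)[X], iot L v p' = p := by
  have hl : p ∈ lifts (AL L v).subtype := by
    rw [lifts_iff_coeff_lifts]
    intro i
    exact ⟨⟨p.coeff i, (hG p 1).1 hp i⟩, rfl⟩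
  exact (mem_lifts _).1 hl

theorem v_aeval_iot_le (hG : Gauss L v t) (p : (AL L v)[X]) : v (aeval t (iot L v p)) ≤ 1 := by
  rw [hG]
  intro i
  rw [coeff_iot]
  exact (p.coeff i).2

theorem rho_eq_zero_iff (hG : Gauss L v t) (p : (AL L v)[X]) :
    rho L v p = 0 ↔ v (aeval t (iot L v p)) < 1 := by
  rw [hG.lt_iff _ 1 one_ne_zero]
  constructor
  · intro h i
    rw [coeff_iot, ← residue_eq_zero_iff, ← coeff_rho, h, coeff_zero]
  · intro h
    ext i
    rw [coeff_rho, coeff_zero, residue_eq_zero_iff, ← coeff_iot]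
    exact h i

theorem rho_eq_iff (hG : Gauss L v t) (p p' : (AL L v)[X]) :
    rho L v p = rho L v p' ↔ v (aeval t (iot L v p) - aeval t (iot L v p')) < 1 := by
  rw [← sub_eq_zero, ← map_sub, rho_eq_zero_iff hG, map_sub, map_sub]

theorem rho_ne_zero_of_v_eq_one (hG : Gauss L v t) {p : (AL L v)[X]}
    (h : v (aeval t (iot L v p)) = 1) : rho L v p ≠ 0 := by
  rw [Ne, rho_eq_zero_iff hG, h]
  exact lt_irrefl 1

/-- lifting vectors. -/
theorem exists_vec_rho_eq {d : ℕ} (g : Fin d → (kL L v)[X]) :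
    ∃ g' : Fin d → (AL L v)[X], ∀ i, rho L v (g' i) = g i :=
  ⟨fun i => (rho_surjective L v (g i)).choose, fun i => (rho_surjective L v (g i)).choose_spec⟩

theorem exists_vec_iot_eq (hG : Gauss L v t) {d : ℕ} {g : Fin d → L[X]}
    (hg : ∀ i, v (aeval t (g i)) ≤ 1) : ∃ g' : Fin d → (AL L v)[X], ∀ i, iot L v (g' i) = g i :=
  ⟨fun i => (exists_iot_eq hG (hg i)).choose, fun i => (exists_iot_eq hG (hg i)).choose_spec⟩

theorem exists_mat_iot_eq (hG : Gauss L v t) {d : ℕ} {P : Matrix (Fin d) (Fin d) L[X]}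
    (hP : ∀ i j, v (aeval t (P i j)) ≤ 1) :
    ∃ P' : Matrix (Fin d) (Fin d) (AL L v)[X], P'.map (iot L v) = P :=
  ⟨Matrix.of fun i j => (exists_iot_eq hG (hP i j)).choose, by
    refine Matrix.ext fun i j => ?_
    exact (exists_iot_eq hG (hP i j)).choose_spec⟩

end Fermat.Agent.TOR.KL2
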